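import Fermat.Agent.S34.H30.Skeleton
import Fermat.Agent.S34.H54.KrullVal

/-!
# B' skeleton leaf (L4): `H30.LocalAbsStatement` (helper59)

Step 1 of the geometric chain in the abstract form of the skeleton `S34/H30/Skeleton.lean`:
on a normal noetherian chart `C`, `ϖ`-saturated in `O`, with an automorphism `τ` trivial modulo
`ϖ`: if `u = f ^ m · (unit at the horizontal primes through x)` then
`τ u / u = (τ f / f) ^ m · (unit at x)`.

Proof: `w := τ h / h`, `h := u / f ^ m`, lies with its inverse in the local ring of every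
height-one prime `P ≤ x` of `C`:
* `ϖ ∉ P`: `h` is a unit at `P` and at `τ⁻¹ P` (which is again a horizontal prime below `x`);
* `ϖ ∈ P`: `w, w⁻¹ ∈ O ⊆ C_P` (saturation + `C_P` is a discrete valuation ring).
Then the Krull property at `x` (helper54, `H54.exists_notMem_of_forall_height_one_le`).
-/

set_option autoImplicit false

namespace Fermat.Agent.S34.H59

open Fermat.Agent.S18.H47

/-- In a discrete valuation subring, a nonzero nonunit `t` has a power pushing any `y` inside. -/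
theorem exists_pow_mul_mem_valuationSubring {F : Type*} [Field F] (V : ValuationSubring F)
    [IsDiscreteValuationRing ↥V] (t : F) (ht : t ∈ V) (ht' : t⁻¹ ∉ V) (y : F) :
    ∃ k : ℕ, t ^ k * y ∈ V := by
  by_cases hy : y ∈ V
  · exact ⟨0, by simpa using hy⟩
  have hy0 : y ≠ 0 := fun h => hy (h ▸ V.zero_mem)
  have hb : y⁻¹ ∈ V := (V.mem_or_inv_mem y).resolve_left hy
  have ht0 : t ≠ 0 := fun h => ht' (by rw [h, inv_zero]; exact V.zero_mem)
  obtain ⟨π, hπ⟩ := IsDiscreteValuationRing.exists_irreducible ↥V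
  have hb0 : (⟨y⁻¹, hb⟩ : ↥V) ≠ 0 := fun h => inv_ne_zero hy0 (congrArg Subtype.val h)
  have htV0 : (⟨t, ht⟩ : ↥V) ≠ 0 := fun h => ht0 (congrArg Subtype.val h)
  obtain ⟨n, u, hu⟩ := IsDiscreteValuationRing.eq_unit_mul_pow_irreducible hb0 hπ
  obtain ⟨e, u', hu'⟩ := IsDiscreteValuationRing.eq_unit_mul_pow_irreducible htV0 hπ
  have he : e ≠ 0 := by
    rintro rfl
    rw [pow_zero, mul_one] at hu'
    apply ht'
    have h1 : t * (((u'⁻¹ : (↥V)ˣ) : ↥V) : F) = 1 := by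
      have h2 : (⟨t, ht⟩ : ↥V) * ((u'⁻¹ : (↥V)ˣ) : ↥V) = 1 := by rw [hu', Units.mul_inv]
      exact congrArg Subtype.val h2
    have h3 : t⁻¹ = (((u'⁻¹ : (↥V)ˣ) : ↥V) : F) := inv_eq_of_mul_eq_one_right h1
    rw [h3]
    exact SetLike.coe_mem _
  refine ⟨n, ?_⟩
  have hle : n ≤ e * n := Nat.le_mul_of_pos_left n (Nat.pos_of_ne_zero he)
  have key : (⟨t, ht⟩ : ↥V) ^ n =
      (((u' ^ n * u⁻¹ : (↥V)ˣ) : ↥V) * π ^ (e * n - n)) * ⟨y⁻¹, hb⟩ := by
    rw [hu', hu, mul_pow, ← pow_mul, Units.val_mul, Units.val_pow_eq_pow_val]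
    have h4 : π ^ (e * n) = π ^ (e * n - n) * π ^ n := by
      rw [← pow_add, Nat.sub_add_cancel hle]
    rw [h4]
    have h5 : ((u⁻¹ : (↥V)ˣ) : ↥V) * (u : ↥V) = 1 := Units.inv_mul u
    calc (u' : ↥V) ^ n * (π ^ (e * n - n) * π ^ n)
        = (u' : ↥V) ^ n * (((u⁻¹ : (↥V)ˣ) : ↥V) * (u : ↥V)) * (π ^ (e * n - n) * π ^ n) := by
          rw [h5, mul_one]
      _ = (u' : ↥V) ^ n * ((u⁻¹ : (↥V)ˣ) : ↥V) * π ^ (e * n - n) * ((u : ↥V) * π ^ n) := by ring
  have key' : t ^ n = ((((u' ^ n * u⁻¹ : (↥V)ˣ) : ↥V) * π ^ (e * n - n) : ↥V) : F) * y⁻¹ :=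
    congrArg Subtype.val key
  have h6 : t ^ n * y = ((((u' ^ n * u⁻¹ : (↥V)ˣ) : ↥V) * π ^ (e * n - n) : ↥V) : F) := by
    rw [key', mul_assoc, inv_mul_cancel₀ hy0, mul_one]
  rw [h6]
  exact SetLike.coe_mem _

section Chart

variable {A₀ F₀ : Type*} [CommRing A₀] [Field F₀] [Algebra A₀ F₀]

/-- Membership in the range of the inclusion of a subalgebra. -/
theorem mem_range_algebraMap_subalgebra (C : Subalgebra A₀ F₀) (y : F₀) :
    y ∈ (algebraMap ↥C F₀).range ↔ y ∈ C := by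
  constructor
  · rintro ⟨c, rfl⟩
    exact c.2
  · intro hy
    exact ⟨⟨y, hy⟩, rfl⟩

/-- The restriction of an automorphism preserving `C` to `C`. -/
def resHom (C : Subalgebra A₀ F₀) (τ : F₀ ≃+* F₀) (hτ : ∀ c ∈ C, τ c ∈ C) : ↥C →+* ↥C where
  toFun c := ⟨τ c, hτ c c.2⟩
  map_one' := Subtype.ext (map_one τ)
  map_mul' _ _ := Subtype.ext (map_mul τ _ _)
  map_zero' := Subtype.ext (map_zero τ)
  map_add' _ _ := Subtype.ext (map_add τ _ _)

@[simp]
theorem resHom_coe (C : Subalgebra A₀ F₀) (τ : F₀ ≃+* F₀) (hτ : ∀ c ∈ C, τ c ∈ C) (c : ↥C) :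
    ((resHom C τ hτ c : ↥C) : F₀) = τ (c : F₀) := rfl

/-- Saturation, iterated: `s ϖ^k y ∈ C` with `y ∈ O` forces `s y ∈ C`. -/
theorem mem_of_pow_smul_mem (ϖ : A₀) (C O : Subalgebra A₀ F₀) (hCO : C ≤ O)
    (hsat : ∀ y ∈ O, ϖ • y ∈ C → y ∈ C) (s : F₀) (hs : s ∈ C) (y : F₀) (hy : y ∈ O) (k : ℕ)
    (h : s * (algebraMap A₀ F₀ ϖ ^ k * y) ∈ C) : s * y ∈ C := by
  induction k with
  | zero => simpa using h
  | succ k ih =>
    apply ih
    apply hsat
    · exact O.mul_mem (hCO hs) (O.mul_mem (O.pow_mem (O.algebraMap_mem ϖ) k) hy)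
    · have e : ϖ • (s * (algebraMap A₀ F₀ ϖ ^ k * y)) =
          s * (algebraMap A₀ F₀ ϖ ^ (k + 1) * y) := by
        rw [Algebra.smul_def, pow_succ]
        ring
      rw [e]
      exact h

variable [FaithfulSMul A₀ F₀]

/-- `O ⊆ C_P` for a height-one prime `P ∋ ϖ` of the normal noetherian chart `C`, when `C` is
`ϖ`-saturated in `O`. -/
theorem exists_notMem_mul_mem_of_mem (ϖ : A₀) (hϖ : ϖ ≠ 0) (C O : Subalgebra A₀ F₀)
    [IsIntegrallyClosed ↥C] [IsNoetherianRing ↥C]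
    (hfrac : ∀ y : F₀, ∃ a ∈ C, ∃ b ∈ C, b ≠ 0 ∧ y = a / b) (hCO : C ≤ O)
    (hsat : ∀ y ∈ O, ϖ • y ∈ C → y ∈ C) (P : Ideal ↥C) [P.IsPrime] (hht : P.height = 1)
    (hϖP : algebraMap A₀ ↥C ϖ ∈ P) (y : F₀) (hy : y ∈ O) :
    ∃ s : ↥C, s ∉ P ∧ (s : F₀) * y ∈ C := by
  have hfr : IsFractionRing ↥C F₀ := isFractionRing_of_frac C hfrac
  have hdvr : IsDiscreteValuationRing ↥(H54.heightOneVal (K := F₀) P hht) :=
    H54.isDiscreteValuationRing_heightOneVal P hht
  have hϖC : algebraMap A₀ ↥C ϖ ≠ 0 := by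
    intro h
    have h1 : algebraMap A₀ F₀ ϖ = 0 := congrArg Subtype.val h
    exact hϖ ((FaithfulSMul.algebraMap_injective A₀ F₀) (by rw [h1, map_zero]))
  have ht : algebraMap A₀ F₀ ϖ ∈ H54.heightOneVal (K := F₀) P hht :=
    H54.algebraMap_mem_heightOneVal P hht (algebraMap A₀ ↥C ϖ)
  have ht' : (algebraMap A₀ F₀ ϖ)⁻¹ ∉ H54.heightOneVal (K := F₀) P hht := by
    intro h
    exact (H54.inv_algebraMap_mem_heightOneVal_iff P hht (algebraMap A₀ ↥C ϖ) hϖC).1 h hϖP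
  obtain ⟨k, hk⟩ := exists_pow_mul_mem_valuationSubring (H54.heightOneVal (K := F₀) P hht)
    (algebraMap A₀ F₀ ϖ) ht ht' y
  obtain ⟨s, hs, hsy⟩ := (H54.mem_heightOneVal_iff P hht _).1 hk
  rw [mem_range_algebraMap_subalgebra] at hsy
  exact ⟨s, hs, mem_of_pow_smul_mem ϖ C O hCO hsat (s : F₀) s.2 y hy k hsy⟩

end Chart

/-- **Skeleton leaf (L4)**: Step 1 in abstract form. -/
theorem localAbsStatement : H30.LocalAbsStatement := by
  intro A₀ F₀ _ _ _ _ _ _ ϖ hirr m C O _ _ hfrac hCO hsat τ hτC hτO hτ1 hτϖ hτval x hx hϖx u hu hloc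
  obtain ⟨f, hf0, hf⟩ := hloc
  have hxp : x.IsPrime := hx.isPrime
  have hfr : IsFractionRing ↥C F₀ := isFractionRing_of_frac C hfrac
  have hτC' : ∀ c ∈ C, τ c ∈ C := fun c hc => (hτC c).2 hc
  have hτf0 : τ f ≠ 0 := (map_ne_zero τ).2 hf0
  have hτu0 : τ u ≠ 0 := (map_ne_zero τ).2 hu
  set g : F₀ := τ f / f with hg
  have hg0 : g ≠ 0 := div_ne_zero hτf0 hf0
  set w : F₀ := τ u / u / g ^ m with hw
  have hw0 : w ≠ 0 := div_ne_zero (div_ne_zero hτu0 hu) (pow_ne_zero _ hg0)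
  -- `w = τ h / h` with `h = u / f ^ m`
  have hh0 : u / f ^ m ≠ 0 := div_ne_zero hu (pow_ne_zero _ hf0)
  have hwh : w = τ (u / f ^ m) / (u / f ^ m) := by
    rw [hw, hg, map_div₀, map_pow, div_pow]
    field_simp
  have hwO : w ∈ O := by
    rw [hwh]
    exact (hτval _ hh0).1
  have hwO' : w⁻¹ ∈ O := by
    rw [hwh, inv_div]
    exact (hτval _ hh0).2
  -- the local statement at every height-one prime below `x`
  have hlocal : ∀ P : Ideal ↥C, P.IsPrime → P.height = 1 → P ≤ x →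
      (∃ s : ↥C, s ∉ P ∧ (s : F₀) * w ∈ C) ∧ (∃ s : ↥C, s ∉ P ∧ (s : F₀) * w⁻¹ ∈ C) := by
    intro P hP hht hPx
    by_cases hϖP : algebraMap A₀ ↥C ϖ ∈ P
    · exact ⟨exists_notMem_mul_mem_of_mem ϖ hirr.ne_zero C O hfrac hCO hsat P hht hϖP w hwO,
        exists_notMem_mul_mem_of_mem ϖ hirr.ne_zero C O hfrac hCO hsat P hht hϖP w⁻¹ hwO'⟩
    · -- horizontal prime: use `HLoc` at `P` and at `τ⁻¹ P`
      set P' : Ideal ↥C := P.comap (resHom C τ hτC') with hP'
      have hP'prime : P'.IsPrime := Ideal.comap_isPrime _ P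
      have hP'x : P' ≤ x := by
        intro c hc
        by_contra hcx
        have h1 := H10.map_not_mem_of_not_mem ϖ C O hCO hsat τ hτC' hτ1 x hϖx c hcx
        exact h1 (hPx hc)
      have hϖP' : algebraMap A₀ ↥C ϖ ∉ P' := by
        intro h
        obtain ⟨e, he⟩ := hτϖ
        have h1 : resHom C τ hτC' (algebraMap A₀ ↥C ϖ) =
            algebraMap A₀ ↥C (e : A₀) * algebraMap A₀ ↥C ϖ := by
          apply Subtype.ext
          rw [← map_mul]
          exact he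
        have h2 : algebraMap A₀ ↥C (e : A₀) * algebraMap A₀ ↥C ϖ ∈ P := by
          rw [← h1]
          exact h
        rcases hP.mem_or_mem h2 with h3 | h3
        · exact hP.ne_top (Ideal.eq_top_of_isUnit_mem _ h3 (e.isUnit.map _))
        · exact hϖP h3
      obtain ⟨a, b, ha, hb, hab⟩ := hf P hP hPx hϖP
      obtain ⟨a', b', ha', hb', hab'⟩ := hf P' hP'prime hP'x hϖP'
      have hb0 : (b : F₀) ≠ 0 := by
        intro h
        exact hb (by rw [show b = 0 from Subtype.ext h]; exact P.zero_mem)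
      have ha0 : (a : F₀) ≠ 0 := by
        intro h
        rw [h, zero_mul] at hab
        exact mul_ne_zero hu hb0 hab
      have hτab' : τ u * τ (b' : F₀) = τ (a' : F₀) * τ f ^ m := by
        rw [← map_mul, hab', map_mul, map_pow]
      have hτb'0 : τ (b' : F₀) ≠ 0 := by
        intro h
        have h1 : (b' : F₀) = 0 := (map_eq_zero τ).1 h
        exact hb' (by rw [show b' = 0 from Subtype.ext h1]; exact P'.zero_mem)
      have hτa'0 : τ (a' : F₀) ≠ 0 := by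
        intro h
        rw [h, zero_mul] at hτab'
        exact mul_ne_zero hτu0 hτb'0 hτab'
      have hτa'P : resHom C τ hτC' a' ∉ P := ha'
      have hτb'P : resHom C τ hτC' b' ∉ P := hb'
      -- `w = (τ a' · b) / (τ b' · a)`
      have hkey : (τ (b' : F₀) * (a : F₀)) * w = τ (a' : F₀) * (b : F₀) := by
        have e1 : u = (a : F₀) * f ^ m / (b : F₀) := by
          rw [eq_div_iff hb0]
          exact hab
        have e2 : τ u = τ (a' : F₀) * τ f ^ m / τ (b' : F₀) := by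
          rw [eq_div_iff hτb'0]
          exact hτab'
        rw [hw, hg, e2, e1, div_pow]
        field_simp
      refine ⟨⟨resHom C τ hτC' b' * a, fun h => (hP.mem_or_mem h).elim hτb'P ha, ?_⟩,
        ⟨resHom C τ hτC' a' * b, fun h => (hP.mem_or_mem h).elim hτa'P hb, ?_⟩⟩
      · have e : ((resHom C τ hτC' b' * a : ↥C) : F₀) * w =
            ((resHom C τ hτC' a' * b : ↥C) : F₀) := hkey
        rw [e]
        exact SetLike.coe_mem _
      · have e : ((resHom C τ hτC' a' * b : ↥C) : F₀) * w⁻¹ =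
            ((resHom C τ hτC' b' * a : ↥C) : F₀) := by
          have h1 : ((resHom C τ hτC' a' * b : ↥C) : F₀) = τ (a' : F₀) * (b : F₀) := rfl
          have h2 : ((resHom C τ hτC' b' * a : ↥C) : F₀) = τ (b' : F₀) * (a : F₀) := rfl
          rw [h1, h2, ← hkey, mul_assoc, mul_inv_cancel₀ hw0, mul_one]
        rw [e]
        exact SetLike.coe_mem _
  -- the Krull property at `x`
  obtain ⟨s, hs, hsw⟩ := H54.exists_notMem_of_forall_height_one_le (K := F₀) x w
    (fun P hP hht hPx => by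
      obtain ⟨s, hs, h⟩ := (hlocal P hP hht hPx).1
      exact ⟨s, hs, (mem_range_algebraMap_subalgebra C _).2 h⟩)
  obtain ⟨s', hs', hsw'⟩ := H54.exists_notMem_of_forall_height_one_le (K := F₀) x w⁻¹
    (fun P hP hht hPx => by
      obtain ⟨s, hs, h⟩ := (hlocal P hP hht hPx).2
      exact ⟨s, hs, (mem_range_algebraMap_subalgebra C _).2 h⟩)
  obtain ⟨c, hc⟩ := hsw
  obtain ⟨c', hc'⟩ := hsw'
  have hc1 : (c : F₀) = (s : F₀) * w := hc
  have hc1' : (c' : F₀) = (s' : F₀) * w⁻¹ := hc'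
  have hcc : c * c' = s * s' := by
    apply Subtype.ext
    show (c : F₀) * (c' : F₀) = (s : F₀) * (s' : F₀)
    rw [hc1, hc1']
    field_simp
  have hcx : c ∉ x := by
    intro h
    have h1 : s * s' ∈ x := by
      rw [← hcc]
      exact x.mul_mem_right _ h
    exact (hxp.mem_or_mem h1).elim hs hs'
  refine ⟨g, hg0, c, s, hcx, hs, ?_⟩
  rw [hc1, hw]
  field_simp

end Fermat.Agent.S34.H59
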