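import Fermat.Agent.S34.H61.FormMaps
import Fermat.Agent.S37.H87.HeckeDegree

/-!
# B' input (F-DEG): the degree of `α` at the discrete level (helper59)

For a prime `q ∤ M` and ANY subfield `K₀ ⊆ ℚ̄`, the `K₀`-form `ratForm (M * q) K₀` of `F_{Mq}` has
degree `q + 1` over the `K₀`-form `ratForm M K₀` of `F_M` along (the restriction of) `α`.

* `exists_coeffMap_eq_of_mem_ratForm` : `q`-expansions of elements of `ratForm N K₀` are defined
  over `K₀`;
* `linearIndependent_alpha_of_ratForm` : linear disjointness — a family of `ratForm (M * q) K₀`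
  independent over `ratForm M K₀` stays independent over `F_M`;
* `finite_alphaForm`, `finrank_alphaForm` : finiteness and the degree `q + 1`, for helper61's
  `H61.algAlpha M q K₀` (the algebra structure along `H61.alphaForm`).
-/

set_option autoImplicit false

open IntermediateField ModularCurve AlgebraicCurve

noncomputable section

namespace Fermat.Agent.S34.H59

open Fermat.Agent.S18 Fermat.Agent.S18.H74 Fermat.Agent.S34.H19 Fermat.Agent.S34.H61

/-! ### Coefficients -/

section Coeff

variable (K₀ : IntermediateField ℚ Kb)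

/-- The `q`-expansion of an element of `ratForm N K₀` has its coefficients in `K₀`. -/
theorem exists_coeffMap_eq_of_mem_ratForm (N : ℕ) {f : FN N} (hf : f ∈ ratForm N K₀) :
    ∃ g : LaurentSeries K₀, coeffMap (algebraMap K₀ Kb) g = (f : LaurentSeries Kb) := by
  induction hf using IntermediateField.adjoin_induction with
  | mem y hy =>
    obtain ⟨g, rfl⟩ := hy
    refine ⟨coeffMap (algebraMap ℚ K₀) (g : LaurentSeries ℚ), ?_⟩
    rw [coe_ratEmb, coeffMap_coeffMap]
    rfl
  | algebraMap c =>
    refine ⟨algebraMap K₀ (LaurentSeries K₀) c, ?_⟩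
    have h : ((algebraMap K₀ (FN N) c : FN N) : LaurentSeries Kb) =
        algebraMap Kb (LaurentSeries Kb) (c : Kb) := rfl
    rw [h, algebraMap_laurentSeries_eq_single, algebraMap_laurentSeries_eq_single, coeffMap_single]
    rfl
  | add y z _ _ hy hz =>
    obtain ⟨gy, hgy⟩ := hy
    obtain ⟨gz, hgz⟩ := hz
    exact ⟨gy + gz, by rw [map_add, hgy, hgz]; rfl⟩
  | inv y _ hy =>
    obtain ⟨gy, hgy⟩ := hy
    exact ⟨gy⁻¹, by rw [map_inv₀, hgy]; rfl⟩
  | mul y z _ _ hy hz =>
    obtain ⟨gy, hgy⟩ := hy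
    obtain ⟨gz, hgz⟩ := hz
    exact ⟨gy * gz, by rw [map_mul, hgy, hgz]; rfl⟩

end Coeff

/-! ### Coefficientwise functionals -/

section Functional

variable {K₀ : IntermediateField ℚ Kb}

/-- Coefficientwise application of a `K₀`-linear functional `ℚ̄ → K₀`. -/
def lam (l : Kb →ₗ[K₀] K₀) (y : LaurentSeries Kb) : LaurentSeries K₀ := y.map l

@[simp]
theorem lam_coeff (l : Kb →ₗ[K₀] K₀) (y : LaurentSeries Kb) (m : ℤ) :
    (lam l y).coeff m = l (y.coeff m) := rfl

theorem lam_add (l : Kb →ₗ[K₀] K₀) (y z : LaurentSeries Kb) :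
    lam l (y + z) = lam l y + lam l z := by
  ext m
  simp

theorem lam_zero (l : Kb →ₗ[K₀] K₀) : lam l 0 = 0 := by
  ext m
  simp

theorem lam_sum {ι : Type*} (l : Kb →ₗ[K₀] K₀) (T : Finset ι) (y : ι → LaurentSeries Kb) :
    lam l (∑ i ∈ T, y i) = ∑ i ∈ T, lam l (y i) := by
  classical
  induction T using Finset.induction_on with
  | empty => simp [lam_zero]
  | insert a T ha ih => rw [Finset.sum_insert ha, Finset.sum_insert ha, lam_add, ih]

theorem support_coeffMap_subset (x : LaurentSeries K₀) :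
    (coeffMap (algebraMap K₀ Kb) x).support ⊆ x.support := by
  intro m hm
  rw [HahnSeries.mem_support] at hm ⊢
  intro h
  apply hm
  rw [coeffMap_coeff, h, map_zero]

theorem support_lam_subset (l : Kb →ₗ[K₀] K₀) (y : LaurentSeries Kb) :
    (lam l y).support ⊆ y.support := by
  intro m hm
  rw [HahnSeries.mem_support] at hm ⊢
  intro h
  apply hm
  rw [lam_coeff, h, map_zero]

/-- Semilinearity: `Λ (x · y) = x · Λ y` for `x` with coefficients in `K₀`. -/
theorem lam_coeffMap_mul (l : Kb →ₗ[K₀] K₀) (x : LaurentSeries K₀) (y : LaurentSeries Kb) :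
    lam l (coeffMap (algebraMap K₀ Kb) x * y) = x * lam l y := by
  refine HahnSeries.ext (funext fun m => ?_)
  have e1 : (coeffMap (algebraMap K₀ Kb) x * y).coeff m =
      ∑ ij ∈ Finset.antidiagonal x.isPWO_support y.isPWO_support m,
        (coeffMap (algebraMap K₀ Kb) x).coeff ij.1 * y.coeff ij.2 :=
    HahnSeries.coeff_mul_left' x.isPWO_support (support_coeffMap_subset x)
  have e2 : (x * lam l y).coeff m =
      ∑ ij ∈ Finset.antidiagonal x.isPWO_support y.isPWO_support m,
        x.coeff ij.1 * (lam l y).coeff ij.2 :=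
    HahnSeries.coeff_mul_right' y.isPWO_support (support_lam_subset l y)
  rw [lam_coeff, e1, e2, map_sum l]
  apply Finset.sum_congr rfl
  intro ij _
  rw [coeffMap_coeff, lam_coeff]
  have h : algebraMap K₀ Kb (x.coeff ij.1) * y.coeff ij.2 = x.coeff ij.1 • y.coeff ij.2 := by
    rw [Algebra.smul_def]
  rw [h, l.map_smul, smul_eq_mul]

/-- A series all of whose coefficientwise functionals vanish is zero. -/
theorem eq_zero_of_forall_lam (y : LaurentSeries Kb)
    (h : ∀ l : Kb →ₗ[K₀] K₀, lam l y = 0) : y = 0 := by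
  ext m
  rw [HahnSeries.coeff_zero]
  let B := Module.Basis.ofVectorSpace K₀ Kb
  rw [← B.forall_coord_eq_zero_iff]
  intro i
  have := congrArg (fun z => HahnSeries.coeff z m) (h (B.coord i))
  simpa using this

theorem coeffMap_algebraMap_injective :
    Function.Injective (coeffMap (algebraMap K₀ Kb)) :=
  (coeffMap (algebraMap K₀ Kb)).injective

end Functional

/-! ### Linear disjointness -/

section Disjoint

variable (K₀ : IntermediateField ℚ Kb)

theorem lam_algebraMap (l : Kb →ₗ[K₀] K₀) (d : Kb) :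
    lam l (algebraMap Kb (LaurentSeries Kb) d) = algebraMap K₀ (LaurentSeries K₀) (l d) := by
  rw [algebraMap_laurentSeries_eq_single, algebraMap_laurentSeries_eq_single]
  refine HahnSeries.ext (funext fun m => ?_)
  rw [lam_coeff]
  rcases eq_or_ne m 0 with rfl | hm
  · rw [HahnSeries.coeff_single_same, HahnSeries.coeff_single_same]
  · rw [HahnSeries.coeff_single_of_ne hm, HahnSeries.coeff_single_of_ne hm, map_zero]

/-- One term: `Λ (d · e) = l(d) · e` for `e ∈ ratForm N K₀`. -/
theorem coeffMap_lam_smul (N : ℕ) (l : Kb →ₗ[K₀] K₀) (d : Kb) {e : FN N}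
    (he : e ∈ ratForm N K₀) :
    coeffMap (algebraMap K₀ Kb)
        (lam l (algebraMap Kb (LaurentSeries Kb) d * (e : LaurentSeries Kb))) =
      algebraMap Kb (LaurentSeries Kb) ((l d : K₀) : Kb) * (e : LaurentSeries Kb) := by
  obtain ⟨g, hg⟩ := exists_coeffMap_eq_of_mem_ratForm K₀ N he
  rw [← hg, mul_comm, lam_coeffMap_mul, lam_algebraMap, map_mul, mul_comm]
  congr 1
  rw [algebraMap_laurentSeries_eq_single, algebraMap_laurentSeries_eq_single, coeffMap_single]
  rfl

/-- The functional image of `a = Σ d_l e_l` (`d_l ∈ ℚ̄`, `e_l ∈ ratForm N K₀`) lies in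
`ratForm N K₀`. -/
theorem exists_mem_ratForm_lam (N : ℕ) (l : Kb →ₗ[K₀] K₀) {a : FN N}
    (ha : a ∈ Submodule.span Kb ((ratForm N K₀ : Set (FN N)))) :
    ∃ a' : FN N, a' ∈ ratForm N K₀ ∧
      coeffMap (algebraMap K₀ Kb) (lam l (a : LaurentSeries Kb)) = (a' : LaurentSeries Kb) := by
  obtain ⟨n, d, e, rfl⟩ := Submodule.mem_span_set'.1 ha
  refine ⟨∑ i, algebraMap Kb (FN N) ((l (d i) : K₀) : Kb) * (e i : FN N), ?_, ?_⟩
  · exact sum_mem fun i _ => mul_mem (algebraMap_mem_ratForm N K₀ (l (d i)).2) (e i).2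
  · have h1 : ((∑ i, d i • (e i : FN N) : FN N) : LaurentSeries Kb) =
        ∑ i, algebraMap Kb (LaurentSeries Kb) (d i) * ((e i : FN N) : LaurentSeries Kb) := by
      have := map_sum (algebraMap (FN N) (LaurentSeries Kb)) (fun i => d i • (e i : FN N))
        Finset.univ
      refine this.trans (Finset.sum_congr rfl fun i _ => ?_)
      rw [Algebra.smul_def, map_mul]
      rfl
    have h2 : ((∑ i, algebraMap Kb (FN N) ((l (d i) : K₀) : Kb) * (e i : FN N) : FN N) :
        LaurentSeries Kb) = ∑ i, algebraMap Kb (LaurentSeries Kb) ((l (d i) : K₀) : Kb) *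
          ((e i : FN N) : LaurentSeries Kb) := by
      have := map_sum (algebraMap (FN N) (LaurentSeries Kb))
        (fun i => algebraMap Kb (FN N) ((l (d i) : K₀) : Kb) * (e i : FN N)) Finset.univ
      refine this.trans (Finset.sum_congr rfl fun i _ => ?_)
      rw [map_mul]
      rfl
    rw [h1, h2, lam_sum, map_sum]
    exact Finset.sum_congr rfl fun i _ => coeffMap_lam_smul K₀ N l (d i) (e i).2

variable (M q : ℕ) [NeZero M] [NeZero q]

/-- Linear disjointness, first step: coefficients in the `ℚ̄`-span of `ratForm M K₀`. -/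
theorem eq_zero_of_sum_alpha_mul_of_span {ι : Type*} [Fintype ι] (f : ι → FN (M * q))
    (hf : ∀ i, f i ∈ ratForm (M * q) K₀)
    (hind : ∀ c : ι → FN M, (∀ i, c i ∈ ratForm M K₀) →
      ∑ i, heckeAlphaBar Kb M q (c i) * f i = 0 → ∀ i, c i = 0)
    (a : ι → FN M) (ha : ∀ i, a i ∈ Submodule.span Kb ((ratForm M K₀ : Set (FN M))))
    (h : ∑ i, heckeAlphaBar Kb M q (a i) * f i = 0) : ∀ i, a i = 0 := by
  intro i
  apply Subtype.ext
  show ((a i : FN M) : LaurentSeries Kb) = 0
  apply eq_zero_of_forall_lam (K₀ := K₀)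
  intro l
  choose a' ha' hca' using fun j => exists_mem_ratForm_lam K₀ M l (ha j)
  choose g hg using fun j => exists_coeffMap_eq_of_mem_ratForm K₀ (M * q) (hf j)
  have hrel : ∑ j, ((f j : FN (M * q)) : LaurentSeries Kb) * ((a j : FN M) : LaurentSeries Kb)
      = 0 := by
    have h1 := congrArg (algebraMap (FN (M * q)) (LaurentSeries Kb)) h
    rw [map_sum, map_zero] at h1
    rw [← h1]
    refine Finset.sum_congr rfl fun j _ => ?_
    rw [map_mul, mul_comm]
    rfl
  have key : ∑ j, heckeAlphaBar Kb M q (a' j) * f j = 0 := by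
    apply Subtype.ext
    have h1 : ((∑ j, heckeAlphaBar Kb M q (a' j) * f j : FN (M * q)) : LaurentSeries Kb) =
        ∑ j, ((a' j : FN M) : LaurentSeries Kb) * ((f j : FN (M * q)) : LaurentSeries Kb) := by
      have := map_sum (algebraMap (FN (M * q)) (LaurentSeries Kb))
        (fun j => heckeAlphaBar Kb M q (a' j) * f j) Finset.univ
      refine this.trans (Finset.sum_congr rfl fun j _ => ?_)
      rw [map_mul]
      rfl
    rw [h1]
    have h2 : ∑ j, ((a' j : FN M) : LaurentSeries Kb) * ((f j : FN (M * q)) : LaurentSeries Kb)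
        = coeffMap (algebraMap K₀ Kb) (lam l (∑ j, ((f j : FN (M * q)) : LaurentSeries Kb) *
          ((a j : FN M) : LaurentSeries Kb))) := by
      rw [lam_sum, map_sum]
      refine Finset.sum_congr rfl fun j _ => ?_
      rw [← hg j, lam_coeffMap_mul, map_mul, hca' j, mul_comm]
    rw [h2, hrel, lam_zero, map_zero]
    rfl
  have h3 := hind a' ha' key i
  have h4 : coeffMap (algebraMap K₀ Kb) (lam l ((a i : FN M) : LaurentSeries Kb)) = 0 := by
    rw [hca' i, h3]
    rfl
  exact coeffMap_algebraMap_injective (by rw [h4, map_zero])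

end Disjoint

section Frac

variable (K₀ : IntermediateField ℚ Kb)

theorem mem_span_iff_mem_adjoin (N : ℕ) (x : FN N) :
    x ∈ Submodule.span Kb ((ratForm N K₀ : Set (FN N))) ↔
      x ∈ Algebra.adjoin Kb ((ratForm N K₀ : Set (FN N))) := by
  have h2 : Subalgebra.toSubmodule (Algebra.adjoin Kb ((ratForm N K₀ : Set (FN N)))) =
      Submodule.span Kb ((ratForm N K₀ : Set (FN N))) := by
    rw [Algebra.adjoin_eq_span]
    congr 1
    exact congrArg (fun S : Submonoid (FN N) => (S : Set (FN N)))
      (Submonoid.closure_eq (ratForm N K₀).toSubalgebra.toSubsemiring.toSubmonoid)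
  rw [← h2, Subalgebra.mem_toSubmodule]

/-- The subring generated by `ratForm N K₀` and `ℚ̄` is contained in the `ℚ̄`-span of
`ratForm N K₀`. -/
theorem subring_closure_le_span (N : ℕ) {x : FN N}
    (hx : x ∈ Subring.closure
      ((ratForm N K₀ : Set (FN N)) ∪ Set.range (algebraMap Kb (FN N)))) :
    x ∈ Submodule.span Kb ((ratForm N K₀ : Set (FN N))) := by
  have h1 : Subring.closure
      ((ratForm N K₀ : Set (FN N)) ∪ Set.range (algebraMap Kb (FN N))) ≤
        (Algebra.adjoin Kb ((ratForm N K₀ : Set (FN N)))).toSubring := by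
    rw [Subring.closure_le]
    rintro y (hy | ⟨c, rfl⟩)
    · exact Algebra.subset_adjoin hy
    · exact Subalgebra.algebraMap_mem _ c
  rw [mem_span_iff_mem_adjoin]
  exact h1 hx

/-- Every element of `F_N` is a fraction of elements of the `ℚ̄`-span of `ratForm N K₀`. -/
theorem exists_span_fraction (N : ℕ) (e : FN N) :
    ∃ y z : FN N, y ∈ Submodule.span Kb ((ratForm N K₀ : Set (FN N))) ∧
      z ∈ Submodule.span Kb ((ratForm N K₀ : Set (FN N))) ∧ z ≠ 0 ∧ e * z = y := by
  have he : e ∈ Subfield.closure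
      ((ratForm N K₀ : Set (FN N)) ∪ Set.range (algebraMap Kb (FN N))) := by
    rw [ratForm_closure_eq_top]
    trivial
  obtain ⟨y, hy, z, hz, hyz⟩ := Subfield.mem_closure_iff.1 he
  by_cases hz0 : z = 0
  · refine ⟨0, 1, Submodule.zero_mem _, Submodule.subset_span (one_mem (ratForm N K₀)),
      one_ne_zero, ?_⟩
    rw [← hyz, hz0, div_zero, zero_mul]
  · refine ⟨y, z, subring_closure_le_span K₀ N hy, subring_closure_le_span K₀ N hz, hz0, ?_⟩
    rw [← hyz, div_mul_cancel₀ y hz0]

theorem mul_mem_span (N : ℕ) {x y : FN N}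
    (hx : x ∈ Submodule.span Kb ((ratForm N K₀ : Set (FN N))))
    (hy : y ∈ Submodule.span Kb ((ratForm N K₀ : Set (FN N)))) :
    x * y ∈ Submodule.span Kb ((ratForm N K₀ : Set (FN N))) := by
  rw [mem_span_iff_mem_adjoin] at hx hy ⊢
  exact mul_mem hx hy

variable (M q : ℕ) [NeZero M] [NeZero q]

/-- **Linear disjointness**: a family of `ratForm (M * q) K₀` independent over `ratForm M K₀`
(along `α`) is independent over `F_M`. -/
theorem eq_zero_of_sum_alpha_mul {ι : Type*} [Fintype ι] (f : ι → FN (M * q))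
    (hf : ∀ i, f i ∈ ratForm (M * q) K₀)
    (hind : ∀ c : ι → FN M, (∀ i, c i ∈ ratForm M K₀) →
      ∑ i, heckeAlphaBar Kb M q (c i) * f i = 0 → ∀ i, c i = 0)
    (e : ι → FN M) (h : ∑ i, heckeAlphaBar Kb M q (e i) * f i = 0) : ∀ i, e i = 0 := by
  classical
  choose y z hy hz hz0 hyz using fun i => exists_span_fraction K₀ M (e i)
  have hb0 : ∏ j, z j ≠ 0 := Finset.prod_ne_zero_iff.2 fun j _ => hz0 j
  have hprod : ∀ (T : Finset ι), ∏ j ∈ T, z j ∈
      Submodule.span Kb ((ratForm M K₀ : Set (FN M))) := by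
    intro T
    induction T using Finset.induction_on with
    | empty =>
      rw [Finset.prod_empty]
      exact Submodule.subset_span (one_mem (ratForm M K₀))
    | insert a T ha ih =>
      rw [Finset.prod_insert ha]
      exact mul_mem_span K₀ M (hz a) ih
  have ha : ∀ i, e i * ∏ j, z j ∈ Submodule.span Kb ((ratForm M K₀ : Set (FN M))) := by
    intro i
    have h1 : e i * ∏ j, z j = y i * ∏ j ∈ Finset.univ.erase i, z j := by
      rw [← Finset.mul_prod_erase Finset.univ z (Finset.mem_univ i), ← mul_assoc, hyz i]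
    rw [h1]
    exact mul_mem_span K₀ M (hy i) (hprod _)
  have hrel : ∑ i, heckeAlphaBar Kb M q (e i * ∏ j, z j) * f i = 0 := by
    have h1 : ∑ i, heckeAlphaBar Kb M q (e i * ∏ j, z j) * f i =
        heckeAlphaBar Kb M q (∏ j, z j) * ∑ i, heckeAlphaBar Kb M q (e i) * f i := by
      rw [Finset.mul_sum]
      refine Finset.sum_congr rfl fun i _ => ?_
      rw [map_mul]
      ring
    rw [h1, h, mul_zero]
  intro i
  have h2 := eq_zero_of_sum_alpha_mul_of_span K₀ M q f hf hind (fun i => e i * ∏ j, z j) ha hrel i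
  exact (mul_eq_zero.1 h2).resolve_right hb0

end Frac

/-! ### The degree -/

section Degree

variable (M q : ℕ) [NeZero M] [NeZero q] (K₀ : IntermediateField ℚ Kb)

/-- The module structure of `ratForm (M * q) K₀` over `ratForm M K₀` along `α`
(NOT an instance; it is `(H61.algAlpha M q K₀).toModule`). -/
abbrev alphaMod : Module ↥(ratForm M K₀) ↥(ratForm (M * q) K₀) := (algAlpha M q K₀).toModule

/-- The algebra structure of `F_{Mq}` over `F_M` along `α` (NOT an instance). -/
abbrev alphaAlgBar : Algebra (FN M) (FN (M * q)) := algebraAlong (heckeAlphaBar Kb M q)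

/-- The module structure of `F_{Mq}` over `F_M` along `α` (NOT an instance). -/
abbrev alphaModBar : Module (FN M) (FN (M * q)) := (alphaAlgBar M q).toModule

/-- A family of `ratForm (M * q) K₀` independent over `ratForm M K₀` is independent over `F_M`
(module structures along `α`). -/
theorem linearIndependent_alpha_of_ratForm {ι : Type*} [Fintype ι]
    (f : ι → ↥(ratForm (M * q) K₀))
    (hf : @LinearIndependent ι ↥(ratForm M K₀) ↥(ratForm (M * q) K₀) f _ _ (alphaMod M q K₀)) :
    @LinearIndependent ι (FN M) (FN (M * q))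
      (fun i => ((f i : ↥(ratForm (M * q) K₀)) : FN (M * q))) _ _ (alphaModBar M q) := by
  let _ : Module ↥(ratForm M K₀) ↥(ratForm (M * q) K₀) := alphaMod M q K₀
  let _ : Module (FN M) (FN (M * q)) := alphaModBar M q
  rw [Fintype.linearIndependent_iff] at hf ⊢
  intro e he
  refine eq_zero_of_sum_alpha_mul K₀ M q (fun i => ((f i : ↥(ratForm (M * q) K₀)) : FN (M * q)))
    (fun i => (f i).2) ?_ e he
  intro c hc hsum i
  have h1 := hf (fun i => ⟨c i, hc i⟩) (by
    apply Subtype.ext
    rw [AddSubmonoidClass.coe_finsetSum]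
    exact hsum) i
  exact congrArg Subtype.val h1

/-- `F_{Mq}` is finite over `F_M` along `α`. -/
theorem finite_alphaModBar : @Module.Finite (FN M) (FN (M * q)) _ _ (alphaModBar M q) :=
  S37.H87.finiteAlong_alpha M q

/-- `[F_{Mq} : α F_M] = q + 1` for a prime `q ∤ M`. -/
theorem finrank_alphaModBar (hq : q.Prime) (hqM : ¬ q ∣ M) :
    @Module.finrank (FN M) (FN (M * q)) _ _ (alphaModBar M q) = q + 1 :=
  S37.H87.finrankAlong_alpha_prime M q hq hqM

/-- An independent family of `ratForm (M * q) K₀` over `ratForm M K₀` has at most `q + 1`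
members. -/
theorem card_le_of_linearIndependent (hq : q.Prime) (hqM : ¬ q ∣ M) {ι : Type*} [Fintype ι]
    (f : ι → ↥(ratForm (M * q) K₀))
    (hf : @LinearIndependent ι ↥(ratForm M K₀) ↥(ratForm (M * q) K₀) f _ _ (alphaMod M q K₀)) :
    Fintype.card ι ≤ q + 1 := by
  have h1 := linearIndependent_alpha_of_ratForm M q K₀ f hf
  rw [← finrank_alphaModBar M q hq hqM]
  exact @LinearIndependent.fintype_card_le_finrank (FN M) (FN (M * q)) _ _ (alphaModBar M q) _
    (finite_alphaModBar M q) ι _ _ h1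

/-- `rank ≤ q + 1`. -/
theorem rank_alphaForm_le (hq : q.Prime) (hqM : ¬ q ∣ M) :
    @Module.rank ↥(ratForm M K₀) ↥(ratForm (M * q) K₀) _ _ (alphaMod M q K₀) ≤ ((q + 1 : ℕ) : Cardinal) := by
  let _ : Module ↥(ratForm M K₀) ↥(ratForm (M * q) K₀) := alphaMod M q K₀
  refine rank_le fun s hs => ?_
  have h := card_le_of_linearIndependent M q K₀ hq hqM (fun i : s => (i : ↥(ratForm (M * q) K₀))) hs
  rwa [Fintype.card_coe] at h

/-- **(F-DEG), finiteness**: `ratForm (M * q) K₀` is finite over `ratForm M K₀` along `α`. -/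
theorem finite_alphaForm (hq : q.Prime) (hqM : ¬ q ∣ M) :
    @Module.Finite ↥(ratForm M K₀) ↥(ratForm (M * q) K₀) _ _ (algAlpha M q K₀).toModule := by
  have h := rank_alphaForm_le M q K₀ hq hqM
  let _ : Module ↥(ratForm M K₀) ↥(ratForm (M * q) K₀) := alphaMod M q K₀
  exact Module.rank_lt_aleph0_iff.1 (lt_of_le_of_lt h (Cardinal.natCast_lt_aleph0))

/-- `F_{Mq}` is generated as an `F_M`-algebra (along `α`) by `ratForm (M * q) K₀`. -/
theorem adjoin_ratForm_eq_top :
    @Algebra.adjoin (FN M) (FN (M * q)) _ _ (alphaAlgBar M q)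
      (ratForm (M * q) K₀ : Set (FN (M * q))) = ⊤ := by
  let _ : Algebra (FN M) (FN (M * q)) := alphaAlgBar M q
  have hfin : Module.Finite (FN M) (FN (M * q)) := finite_alphaModBar M q
  have halg : Algebra.IsAlgebraic (FN M) (FN (M * q)) := Algebra.IsAlgebraic.of_finite _ _
  rw [eq_top_iff]
  rintro f -
  have hf : f ∈ Subfield.closure
      ((ratForm (M * q) K₀ : Set (FN (M * q))) ∪ Set.range (algebraMap Kb (FN (M * q)))) := by
    rw [ratForm_closure_eq_top]
    trivial
  induction hf using Subfield.closure_induction with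
  | mem y hy =>
    rcases hy with hy | ⟨c, rfl⟩
    · exact Algebra.subset_adjoin hy
    · have h1 : algebraMap Kb (FN (M * q)) c =
          algebraMap (FN M) (FN (M * q)) (algebraMap Kb (FN M) c) :=
        ((heckeAlphaBar Kb M q).commutes c).symm
      rw [h1]
      exact Subalgebra.algebraMap_mem _ _
  | one => exact one_mem _
  | add a b _ _ ha hb => exact add_mem ha hb
  | neg a _ ha => exact neg_mem ha
  | inv a _ ha =>
    exact Subalgebra.inv_mem_of_algebraic _ (x := ⟨a, ha⟩) (Algebra.IsAlgebraic.isAlgebraic a)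
  | mul a b _ _ ha hb => exact mul_mem ha hb

/-- `F_{Mq}` is spanned over `F_M` (along `α`) by `ratForm (M * q) K₀`. -/
theorem span_ratForm_eq_top :
    @Submodule.span (FN M) (FN (M * q)) _ _ (alphaModBar M q)
      (ratForm (M * q) K₀ : Set (FN (M * q))) = ⊤ := by
  let _ : Algebra (FN M) (FN (M * q)) := alphaAlgBar M q
  have h1 := Algebra.adjoin_eq_span (FN M) (ratForm (M * q) K₀ : Set (FN (M * q)))
  have h2 : ((Submonoid.closure (ratForm (M * q) K₀ : Set (FN (M * q))) : Submonoid (FN (M * q))) :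
      Set (FN (M * q))) = (ratForm (M * q) K₀ : Set (FN (M * q))) :=
    congrArg (fun S : Submonoid (FN (M * q)) => (S : Set (FN (M * q))))
      (Submonoid.closure_eq (ratForm (M * q) K₀).toSubalgebra.toSubsemiring.toSubmonoid)
  rw [h2, adjoin_ratForm_eq_top M q K₀] at h1
  rw [← h1]
  rfl

/-- **(F-DEG)**: `[ratForm (M * q) K₀ : α (ratForm M K₀)] = q + 1` for a prime `q ∤ M`. -/
theorem finrank_alphaForm (hq : q.Prime) (hqM : ¬ q ∣ M) :
    @Module.finrank ↥(ratForm M K₀) ↥(ratForm (M * q) K₀) _ _ (algAlpha M q K₀).toModule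
      = q + 1 := by
  have hfin := finite_alphaForm M q K₀ hq hqM
  have hrk := rank_alphaForm_le M q K₀ hq hqM
  have hspan := span_ratForm_eq_top M q K₀
  have hbar := finrank_alphaModBar M q hq hqM
  let _ : Module ↥(ratForm M K₀) ↥(ratForm (M * q) K₀) := alphaMod M q K₀
  let _ : Module (FN M) (FN (M * q)) := alphaModBar M q
  refine le_antisymm (Module.finrank_le_of_rank_le hrk) ?_
  let b := Module.finBasis ↥(ratForm M K₀) ↥(ratForm (M * q) K₀)
  let g : Fin (Module.finrank ↥(ratForm M K₀) ↥(ratForm (M * q) K₀)) → FN (M * q) :=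
    fun i => ((b i : ↥(ratForm (M * q) K₀)) : FN (M * q))
  have hg : Submodule.span (FN M) (Set.range g) = ⊤ := by
    rw [eq_top_iff, ← hspan, Submodule.span_le]
    intro f hf
    have h1 := b.sum_repr ⟨f, hf⟩
    have h2 : f = ∑ i, (((b.repr ⟨f, hf⟩ i : ↥(ratForm M K₀)) : FN M)) • g i := by
      have h3 := congrArg Subtype.val h1
      rw [AddSubmonoidClass.coe_finsetSum] at h3
      exact h3.symm
    rw [h2]
    exact Submodule.sum_mem _ fun i _ =>
      Submodule.smul_mem _ _ (Submodule.subset_span ⟨i, rfl⟩)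
  have h4 : Set.finrank (FN M) (Set.range g) = q + 1 := by
    rw [Set.finrank, hg, finrank_top]
    exact hbar
  have h5 := finrank_range_le_card (R := FN M) g
  rw [h4, Fintype.card_fin] at h5
  exact h5

end Degree

end Fermat.Agent.S34.H59
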