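import Fermat.Agent.S34.H59.CuspModPoly
import Fermat.Agent.S34.H42.CuspIntegral

/-!
# B' leaf (A4), second part: integrality of `ρ₁ = s^p / t` and `ρ₂ = t^p / s` (helper59)

With `s = 1/j`, `t = 1/j_p` (`j_p = j(q^p)`), the elements `ρ₁ = s^p / t = j_p / j^p` and
`ρ₂ = t^p / s = j / j_p^p` are integral over every ring containing `s`, resp. `t`
(monic polynomial `monicCuspPoly`), `ρ₁ ρ₂ = (s t)^(p-1)`, and a root `u` of the monic cusp
polynomial reduces to `0` or `1` wherever `s` reduces to `0`.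
-/

set_option autoImplicit false

namespace Fermat.Agent.S34.H59

open Fermat.Agent

section General

variable {p : ℕ} {Φ : Polynomial (Polynomial ℤ)}

/-- The monic cusp polynomial stays monic after specialising `Y' ↦ s`. -/
theorem monic_evalY_monicCuspPoly (hΦ : S28.IsModPoly p Φ) {B : Type*} [CommRing B] (s : B) :
    (S28.evalY s (monicCuspPoly p Φ)).Monic := by
  rw [S28.evalY, Polynomial.coe_mapRingHom]
  exact (monicCuspPoly_monic hΦ).map _

/-- If `Φ(x, y) = 0` and `y · s = 1` with `s` in (the image of) `B`, then `x s^p = x / y^p` is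
integral over `B`. -/
theorem isIntegral_mul_pow (hp : p.Prime) (hΦ : S28.IsModPoly p Φ) {B F : Type*} [CommRing B]
    [CommRing F] [Algebra B F] {x y : F} (s : B) (hy : y * algebraMap B F s = 1)
    (h0 : (S28.evalY y Φ).eval x = 0) : IsIntegral B (x * algebraMap B F s ^ p) := by
  refine ⟨S28.evalY s (monicCuspPoly p Φ), monic_evalY_monicCuspPoly hΦ s, ?_⟩
  rw [Polynomial.eval₂_eq_eval_map, S28.map_evalY]
  exact monicCuspPoly_eval_eq_zero hp hΦ x y _ hy h0

/-- `P(U, 0) = U^p (U - 1)`. -/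
theorem evalY_zero_monicCuspPoly_eval (hp : p.Prime) (hΦ : S28.IsModPoly p Φ) {k : Type*}
    [CommRing k] (u : k) :
    (S28.evalY 0 (monicCuspPoly p Φ)).eval u = u ^ p * (u - 1) := by
  rw [evalY_eval_eq_sum 0 u (monicCuspPoly p Φ) (p + 2)
    (by rw [monicCuspPoly_natDegree hΦ]; exact Nat.lt_succ_self _)]
  simp only [Polynomial.eval₂_at_zero, monicCuspPoly_coeff_coeff_zero hp hΦ]
  rw [Finset.sum_range_succ, Finset.sum_range_succ, Finset.sum_eq_zero]
  · simp
    ring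
  · intro i hi
    have := Finset.mem_range.mp hi
    rw [if_neg (by omega), if_neg (by omega)]
    simp

/-- The relation `P(u, s) = 0` inside a subring `R ⊆ F` containing `s = 1/y` and `u = x / y^p`. -/
theorem monicCuspPoly_eval_eq_zero_of_injective (hp : p.Prime) (hΦ : S28.IsModPoly p Φ)
    {R F : Type*} [CommRing R] [CommRing F] [Algebra R F]
    (hinj : Function.Injective (algebraMap R F)) {x y : F} (s u : R)
    (hy : y * algebraMap R F s = 1) (hu : algebraMap R F u = x * algebraMap R F s ^ p)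
    (h0 : (S28.evalY y Φ).eval x = 0) : (S28.evalY s (monicCuspPoly p Φ)).eval u = 0 := by
  apply hinj
  rw [S28.map_evalY_eval, hu, map_zero]
  exact monicCuspPoly_eval_eq_zero hp hΦ x y _ hy h0

/-- Reduction of `u = x / y^p` at a point where `s = 1/y` vanishes: `ū^p (ū - 1) = 0`. -/
theorem rho_reduction (hp : p.Prime) (hΦ : S28.IsModPoly p Φ) {R F k : Type*} [CommRing R]
    [CommRing F] [Algebra R F] (hinj : Function.Injective (algebraMap R F)) [CommRing k]
    (φ : R →+* k) {x y : F} (s u : R) (hy : y * algebraMap R F s = 1)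
    (hu : algebraMap R F u = x * algebraMap R F s ^ p) (h0 : (S28.evalY y Φ).eval x = 0)
    (hφ : φ s = 0) : φ u ^ p * (φ u - 1) = 0 := by
  have h1 := monicCuspPoly_eval_eq_zero_of_injective hp hΦ hinj s u hy hu h0
  have h2 := congrArg φ h1
  rwa [S28.map_evalY_eval, hφ, map_zero, evalY_zero_monicCuspPoly_eval hp hΦ] at h2

/-- Over a domain: `u = x / y^p` reduces to `0` or to `1` wherever `1/y` reduces to `0`. -/
theorem rho_dichotomy (hp : p.Prime) (hΦ : S28.IsModPoly p Φ) {R F k : Type*} [CommRing R]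
    [CommRing F] [Algebra R F] (hinj : Function.Injective (algebraMap R F)) [CommRing k]
    [IsDomain k] (φ : R →+* k) {x y : F} (s u : R) (hy : y * algebraMap R F s = 1)
    (hu : algebraMap R F u = x * algebraMap R F s ^ p) (h0 : (S28.evalY y Φ).eval x = 0)
    (hφ : φ s = 0) : φ u = 0 ∨ φ u = 1 := by
  rcases mul_eq_zero.mp (rho_reduction hp hΦ hinj φ s u hy hu h0 hφ) with h | h
  · exact Or.inl (pow_eq_zero_iff hp.ne_zero |>.mp h)
  · exact Or.inr (sub_eq_zero.mp h)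

/-- `ρ₁ ρ₂ = (s t)^(p-1)` for `s = 1/y`, `t = 1/x`, `ρ₁ = x s^p`, `ρ₂ = y t^p`. -/
theorem rho_mul_rho {F : Type*} [CommRing F] (p : ℕ) (hp : p ≠ 0) (x y s t : F)
    (hx : x * t = 1) (hy : y * s = 1) : (x * s ^ p) * (y * t ^ p) = (s * t) ^ (p - 1) := by
  obtain ⟨k, rfl⟩ : ∃ k, p = k + 1 := ⟨p - 1, by omega⟩
  rw [Nat.add_sub_cancel, pow_succ, pow_succ, mul_pow]
  have e : x * (s ^ k * s) * (y * (t ^ k * t)) = (x * t) * (y * s) * (s ^ k * t ^ k) := by ring
  rw [e, hx, hy, one_mul, one_mul]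

end General

section FunctionField

open AlgebraicCurve ModularCurve
open Fermat.Agent.S28 Fermat.Agent.S18 Fermat.Agent.S18.H74

/-- `ρ₁ = s^p / t = j(q^(d p)) / j(q^d)^p` is integral over every `B` containing `s = 1/j(q^d)`. -/
theorem isIntegral_rho_one (N' : ℕ) [NeZero N'] {p : ℕ} (hp : p.Prime) (d : ℕ) [NeZero d]
    [NeZero (d * p)] (hd : d ∣ N') (hdp : d * p ∣ N') {B : Type*} [CommRing B]
    [Algebra B (FN N')] (s : B) (hs : algebraMap B (FN N') s = (H28.jFN N' d hd)⁻¹) :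
    IsIntegral B (H28.jFN N' (d * p) hdp * ((H28.jFN N' d hd)⁻¹) ^ p) := by
  obtain ⟨Φ, hΦ⟩ := Fermat.Agent.S28.hasModPolys p hp
  rw [← hs]
  refine isIntegral_mul_pow hp hΦ (y := H28.jFN N' d hd) s ?_
    (S34.H42.evalY_jFN N' hp d hd hdp hΦ).1
  rw [hs]
  exact mul_inv_cancel₀ (S34.H42.jFN_ne_zero N' d hd)

/-- `ρ₂ = t^p / s = j(q^d) / j(q^(d p))^p` is integral over every `B` containing
`t = 1/j(q^(d p))`. -/
theorem isIntegral_rho_two (N' : ℕ) [NeZero N'] {p : ℕ} (hp : p.Prime) (d : ℕ) [NeZero d]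
    [NeZero (d * p)] (hd : d ∣ N') (hdp : d * p ∣ N') {B : Type*} [CommRing B]
    [Algebra B (FN N')] (t : B) (ht : algebraMap B (FN N') t = (H28.jFN N' (d * p) hdp)⁻¹) :
    IsIntegral B (H28.jFN N' d hd * ((H28.jFN N' (d * p) hdp)⁻¹) ^ p) := by
  obtain ⟨Φ, hΦ⟩ := Fermat.Agent.S28.hasModPolys p hp
  rw [← ht]
  refine isIntegral_mul_pow hp hΦ (y := H28.jFN N' (d * p) hdp) t ?_
    (S34.H42.evalY_jFN N' hp d hd hdp hΦ).2
  rw [ht]
  exact mul_inv_cancel₀ (S34.H42.jFN_ne_zero N' (d * p) hdp)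

/-- `ρ₁ ρ₂ = (s t)^(p-1)` in `F_{N'}`. -/
theorem rho_one_mul_rho_two (N' : ℕ) {p : ℕ} (hp : p ≠ 0) (d : ℕ) [NeZero d]
    [NeZero (d * p)] (hd : d ∣ N') (hdp : d * p ∣ N') :
    (H28.jFN N' (d * p) hdp * ((H28.jFN N' d hd)⁻¹) ^ p) *
        (H28.jFN N' d hd * ((H28.jFN N' (d * p) hdp)⁻¹) ^ p) =
      ((H28.jFN N' d hd)⁻¹ * (H28.jFN N' (d * p) hdp)⁻¹) ^ (p - 1) :=
  rho_mul_rho p hp _ _ _ _ (mul_inv_cancel₀ (S34.H42.jFN_ne_zero N' (d * p) hdp))
    (mul_inv_cancel₀ (S34.H42.jFN_ne_zero N' d hd))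

end FunctionField

end Fermat.Agent.S34.H59
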