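import Fermat.Agent.S34.H59.HUnrJtop
import Fermat.Agent.S34.H59.FDeg
import Fermat.Agent.S34.H68.CrossChart

/-!
# B' (M6b): `hunr` in the vocabulary of `H68.crossing_regular_of_dsetup` (helper59)

`K = ratForm M K₀`, `L = ratForm (M * q) K₀`, `Algebra K L = H61.algAlpha M q K₀`,
`x = ⟨j(q^M), _⟩ : K`; the charts `S₀ = chart A₀ x`, `C₀ = chart A₀ (algebraMap K L x)` and the
inclusion `H68.chartMap x : S₀ →+* C₀`.

* `hunr_cross_jtop` : the hypothesis `hunr` of `H68.crossing_regular_of_dsetup`, verbatim;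
* `hunr_cross_jtop_of_dsetup` : the same from the descended setup `DSetup A₀ O₀ x` at level `M`;
* `hunr_cross_jtop_le` : the hypothesis `hunr` of `H68.crossing_regular_of_dsetup_le`, verbatim.
-/

set_option autoImplicit false

open IntermediateField ModularCurve AlgebraicCurve Polynomial

noncomputable section

namespace Fermat.Agent.S34.H59

open Fermat.Agent.S18 Fermat.Agent.S18.H74 Fermat.Agent.S18.H19 Fermat.Agent.S34.H19
  Fermat.Agent.S34.H61

variable (M q : ℕ) [NeZero M] [NeZero q] (K₀ : IntermediateField ℚ Kb) (A : ValuationSubring Kb)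

/-- **`hunr` of `H68.crossing_regular_of_dsetup`** for the base function `j(q^M)` on the
`K₀`-forms (unramified base: `q` a uniformiser of `A ∩ K₀`; `Γ₀(M)` without elliptic
elements). -/
theorem hunr_cross_jtop (hNoEll : Fermat.Agent.S34.H92.NoElliptic M)
    [IsDiscreteValuationRing ↥(A.comap (algebraMap K₀ Kb))]
    (hqA : Irreducible ((q : ℕ) : ↥(A.comap (algebraMap K₀ Kb))))
    (hx : H28.jtop M ∈ ratForm M K₀) :
    letI := algComap (A.comap (algebraMap K₀ Kb)) (ratForm M K₀)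
    letI := algComap (A.comap (algebraMap K₀ Kb)) (ratForm (M * q) K₀)
    letI := algAlpha M q K₀
    haveI := isScalarTower_algAlpha M q K₀ A
    Transcendental ↥(A.comap (algebraMap K₀ Kb)) (⟨H28.jtop M, hx⟩ : ↥(ratForm M K₀)) →
    Module.Finite ↥(ratSub ↥(A.comap (algebraMap K₀ Kb)) (⟨H28.jtop M, hx⟩ : ↥(ratForm M K₀)))
      ↥(ratForm M K₀) →
    Transcendental ↥(A.comap (algebraMap K₀ Kb))
      (algebraMap ↥(ratForm M K₀) ↥(ratForm (M * q) K₀) ⟨H28.jtop M, hx⟩) →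
    Module.Finite ↥(ratSub ↥(A.comap (algebraMap K₀ Kb))
        (algebraMap ↥(ratForm M K₀) ↥(ratForm (M * q) K₀) ⟨H28.jtop M, hx⟩))
      ↥(ratForm (M * q) K₀) →
    ∀ Q : Ideal ↥(chart ↥(A.comap (algebraMap K₀ Kb))
        (algebraMap ↥(ratForm M K₀) ↥(ratForm (M * q) K₀) ⟨H28.jtop M, hx⟩)), Q.IsPrime →
      ((q : ℕ) : ↥(chart ↥(A.comap (algebraMap K₀ Kb))
        (algebraMap ↥(ratForm M K₀) ↥(ratForm (M * q) K₀) ⟨H28.jtop M, hx⟩))) ∉ Q →
      ∀ a ∈ Q, ∃ b ∉ Q,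
        b * a ∈ Ideal.map
          (H68.chartMap (A₀ := ↥(A.comap (algebraMap K₀ Kb))) (L := ↥(ratForm (M * q) K₀))
            (⟨H28.jtop M, hx⟩ : ↥(ratForm M K₀)))
          (Q.comap (H68.chartMap (A₀ := ↥(A.comap (algebraMap K₀ Kb)))
            (L := ↥(ratForm (M * q) K₀)) (⟨H28.jtop M, hx⟩ : ↥(ratForm M K₀)))) := by
  letI algM := algComap (A.comap (algebraMap K₀ Kb)) (ratForm M K₀)
  letI algN := algComap (A.comap (algebraMap K₀ Kb)) (ratForm (M * q) K₀)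
  letI algKL := algAlpha M q K₀
  haveI tow := isScalarTower_algAlpha M q K₀ A
  intro htr hfin htr' hfin'
  letI algSC := H68.chartAlgTop (A₀ := ↥(A.comap (algebraMap K₀ Kb)))
    (L := ↥(ratForm (M * q) K₀)) (⟨H28.jtop M, hx⟩ : ↥(ratForm M K₀))
  exact hunr_ratForm_jtop M q K₀ A hNoEll hqA hx
    (algebraMap ↥(ratForm M K₀) ↥(ratForm (M * q) K₀) ⟨H28.jtop M, hx⟩) rfl htr hfin htr' hfin'
    (fun _ => rfl)

/-- **`hunr` of `H68.crossing_regular_of_dsetup`** from the descended setup at level `M` alone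
(the chart facts at level `M q` come from `H61.transcendental_top`, `H61.finite_ratSub_top` and
(F-DEG) `finite_alphaForm`). -/
theorem hunr_cross_jtop_of_dsetup (hq : q.Prime) (hqM : ¬ q ∣ M)
    (hNoEll : Fermat.Agent.S34.H92.NoElliptic M)
    [IsDiscreteValuationRing ↥(A.comap (algebraMap K₀ Kb))]
    (hqA : Irreducible ((q : ℕ) : ↥(A.comap (algebraMap K₀ Kb))))
    (hx : H28.jtop M ∈ ratForm M K₀) :
    letI := algComap (A.comap (algebraMap K₀ Kb)) (ratForm M K₀)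
    letI := algComap (A.comap (algebraMap K₀ Kb)) (ratForm (M * q) K₀)
    letI := algAlpha M q K₀
    haveI := isScalarTower_algAlpha M q K₀ A
    ∀ O₀ : ValuationSubring ↥(ratForm M K₀),
    DSetup ↥(A.comap (algebraMap K₀ Kb)) O₀ (⟨H28.jtop M, hx⟩ : ↥(ratForm M K₀)) →
    ∀ Q : Ideal ↥(chart ↥(A.comap (algebraMap K₀ Kb))
        (algebraMap ↥(ratForm M K₀) ↥(ratForm (M * q) K₀) ⟨H28.jtop M, hx⟩)), Q.IsPrime →
      ((q : ℕ) : ↥(chart ↥(A.comap (algebraMap K₀ Kb))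
        (algebraMap ↥(ratForm M K₀) ↥(ratForm (M * q) K₀) ⟨H28.jtop M, hx⟩))) ∉ Q →
      ∀ a ∈ Q, ∃ b ∉ Q,
        b * a ∈ Ideal.map
          (H68.chartMap (A₀ := ↥(A.comap (algebraMap K₀ Kb))) (L := ↥(ratForm (M * q) K₀))
            (⟨H28.jtop M, hx⟩ : ↥(ratForm M K₀)))
          (Q.comap (H68.chartMap (A₀ := ↥(A.comap (algebraMap K₀ Kb)))
            (L := ↥(ratForm (M * q) K₀)) (⟨H28.jtop M, hx⟩ : ↥(ratForm M K₀)))) := by
  letI algM := algComap (A.comap (algebraMap K₀ Kb)) (ratForm M K₀)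
  letI algN := algComap (A.comap (algebraMap K₀ Kb)) (ratForm (M * q) K₀)
  letI algKL := algAlpha M q K₀
  haveI tow := isScalarTower_algAlpha M q K₀ A
  intro O₀ hS
  have htr := hS.transc
  have hfin := hS.finite
  have htr' := @H61.transcendental_top ↥(A.comap (algebraMap K₀ Kb)) ↥(ratForm M K₀)
    ↥(ratForm (M * q) K₀) _ _ _ algM algN algKL tow ⟨H28.jtop M, hx⟩ htr
  have hfin' := @H61.finite_ratSub_top ↥(A.comap (algebraMap K₀ Kb)) ↥(ratForm M K₀)
    ↥(ratForm (M * q) K₀) _ _ _ algM algN algKL tow ⟨H28.jtop M, hx⟩ hfin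
    (finite_alphaForm M q K₀ hq hqM)
  exact hunr_cross_jtop M q K₀ A hNoEll hqA hx htr hfin htr' hfin'

/-- **`hunr` of `H68.crossing_regular_of_dsetup_le`** (primes inside a given `x₀`), from the
descended setup at level `M`. -/
theorem hunr_cross_jtop_le (hq : q.Prime) (hqM : ¬ q ∣ M)
    (hNoEll : Fermat.Agent.S34.H92.NoElliptic M)
    [IsDiscreteValuationRing ↥(A.comap (algebraMap K₀ Kb))]
    (hqA : Irreducible ((q : ℕ) : ↥(A.comap (algebraMap K₀ Kb))))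
    (hx : H28.jtop M ∈ ratForm M K₀) :
    letI := algComap (A.comap (algebraMap K₀ Kb)) (ratForm M K₀)
    letI := algComap (A.comap (algebraMap K₀ Kb)) (ratForm (M * q) K₀)
    letI := algAlpha M q K₀
    haveI := isScalarTower_algAlpha M q K₀ A
    ∀ O₀ : ValuationSubring ↥(ratForm M K₀),
    DSetup ↥(A.comap (algebraMap K₀ Kb)) O₀ (⟨H28.jtop M, hx⟩ : ↥(ratForm M K₀)) →
    ∀ x₀ : Ideal ↥(chart ↥(A.comap (algebraMap K₀ Kb))
        (algebraMap ↥(ratForm M K₀) ↥(ratForm (M * q) K₀) ⟨H28.jtop M, hx⟩)),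
    ∀ Q : Ideal ↥(chart ↥(A.comap (algebraMap K₀ Kb))
        (algebraMap ↥(ratForm M K₀) ↥(ratForm (M * q) K₀) ⟨H28.jtop M, hx⟩)), Q.IsPrime →
      ((q : ℕ) : ↥(chart ↥(A.comap (algebraMap K₀ Kb))
        (algebraMap ↥(ratForm M K₀) ↥(ratForm (M * q) K₀) ⟨H28.jtop M, hx⟩))) ∉ Q → Q ≤ x₀ →
      ∀ a ∈ Q, ∃ b ∉ Q,
        b * a ∈ Ideal.map
          (H68.chartMap (A₀ := ↥(A.comap (algebraMap K₀ Kb))) (L := ↥(ratForm (M * q) K₀))
            (⟨H28.jtop M, hx⟩ : ↥(ratForm M K₀)))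
          (Q.comap (H68.chartMap (A₀ := ↥(A.comap (algebraMap K₀ Kb)))
            (L := ↥(ratForm (M * q) K₀)) (⟨H28.jtop M, hx⟩ : ↥(ratForm M K₀)))) := by
  intro O₀ hS x₀ Q hQ hqQ _
  exact hunr_cross_jtop_of_dsetup M q K₀ A hq hqM hNoEll hqA hx O₀ hS Q hQ hqQ

end Fermat.Agent.S34.H59
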