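import Mathlib
import Fermat.Agent.S28.Formal

/-!
# B' leaf (A4): the modular polynomial at the cusp (helper59)

Pure algebra consequences of `S28.IsModPoly p Φ` (factorisation form):

* `natDegree_coeff_le`, `natDegree_coeff_le_of_pos`, `natDegree_coeff_zero`, `isUnit_leadingCoeff_coeff_zero`,
  `natDegree_coeff_prime`, `leadingCoeff_coeff_prime` : the `Y`-degrees of the `X`-coefficients of `Φ`;
* `exists_cusp_poly` : the reciprocal polynomial `Q(X', Y')` with `Q(1/x, 1/y) = 0` whenever `Φ(x, y) = 0`;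
* `exists_monic_cusp_poly` : the monic polynomial `P(U, Y')` with `P(x / y^p, 1/y) = 0` whenever
  `Φ(x, y) = 0`, and `P(U, 0) = U^p (U - 1)`.
-/

set_option autoImplicit false


namespace Fermat.Agent.S34.H59

variable {A : Type*} [CommRing A]

/-- "Pole bound": all coefficients of `f` below `n` vanish (`ord f ≥ n`). -/
def PB (n : ℤ) (f : LaurentSeries A) : Prop := ∀ m : ℤ, m < n → f.coeff m = 0

theorem PB.mono {n n' : ℤ} {f : LaurentSeries A} (h : PB n f) (hn : n' ≤ n) : PB n' f :=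
  fun m hm => h m (lt_of_lt_of_le hm hn)

theorem PB.zero (n : ℤ) : PB n (0 : LaurentSeries A) := fun _ _ => rfl

theorem PB.add {n : ℤ} {f g : LaurentSeries A} (hf : PB n f) (hg : PB n g) : PB n (f + g) :=
  fun m hm => by rw [HahnSeries.coeff_add, hf m hm, hg m hm, add_zero]

theorem PB.neg {n : ℤ} {f : LaurentSeries A} (hf : PB n f) : PB n (-f) :=
  fun m hm => by rw [HahnSeries.coeff_neg, hf m hm, neg_zero]

theorem PB.sub {n : ℤ} {f g : LaurentSeries A} (hf : PB n f) (hg : PB n g) : PB n (f - g) := by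
  rw [sub_eq_add_neg]
  exact hf.add hg.neg

theorem PB.one : PB 0 (1 : LaurentSeries A) := fun m hm => by
  rw [HahnSeries.coeff_one, if_neg (ne_of_lt hm)]

theorem PB.mul {a b : ℤ} {f g : LaurentSeries A} (hf : PB a f) (hg : PB b g) :
    PB (a + b) (f * g) := by
  intro m hm
  rw [HahnSeries.coeff_mul]
  refine Finset.sum_eq_zero fun ij hij => ?_
  have h := (Finset.mem_antidiagonal.mp hij).2.2
  by_cases h1 : ij.1 < a
  · rw [hf _ h1, zero_mul]
  · have h2 : ij.2 < b := by omega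
    rw [hg _ h2, mul_zero]

/-- The coefficient of a product at the sum of the pole bounds. -/
theorem PB.coeff_mul {a b : ℤ} {f g : LaurentSeries A} (hf : PB a f) (hg : PB b g) :
    (f * g).coeff (a + b) = f.coeff a * g.coeff b := by
  rw [HahnSeries.coeff_mul]
  by_cases hmem : ((a, b) : ℤ × ℤ) ∈ Finset.antidiagonal f.isPWO_support g.isPWO_support (a + b)
  · rw [Finset.sum_eq_single_of_mem _ hmem]
    intro ij hij hne
    have h := (Finset.mem_antidiagonal.mp hij).2.2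
    by_cases h1 : ij.1 < a
    · rw [hf _ h1, zero_mul]
    · by_cases h2 : ij.2 < b
      · rw [hg _ h2, mul_zero]
      · exfalso
        apply hne
        have e1 : ij.1 = a := by omega
        have e2 : ij.2 = b := by omega
        exact Prod.ext e1 e2
  · have hz : f.coeff a * g.coeff b = 0 := by
      by_contra hne
      apply hmem
      rw [Finset.mem_antidiagonal]
      refine ⟨?_, ?_, rfl⟩
      · exact fun h0 => hne (by rw [show f.coeff a = 0 from h0, zero_mul])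
      · exact fun h0 => hne (by rw [show g.coeff b = 0 from h0, mul_zero])
    rw [hz]
    refine Finset.sum_eq_zero fun ij hij => ?_
    have h := (Finset.mem_antidiagonal.mp hij).2.2
    by_cases h1 : ij.1 < a
    · rw [hf _ h1, zero_mul]
    · by_cases h2 : ij.2 < b
      · rw [hg _ h2, mul_zero]
      · exfalso
        apply hmem
        have e1 : ij.1 = a := by omega
        have e2 : ij.2 = b := by omega
        have : ij = (a, b) := Prod.ext e1 e2
        rw [← this]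
        exact hij

theorem PB.pow {a : ℤ} {f : LaurentSeries A} (hf : PB a f) (n : ℕ) : PB ((n : ℤ) * a) (f ^ n) := by
  induction n with
  | zero => simpa using (PB.one : PB 0 (1 : LaurentSeries A))
  | succ n ih =>
    rw [pow_succ]
    have := ih.mul hf
    convert this using 1
    push_cast
    ring

theorem PB.coeff_pow {a : ℤ} {f : LaurentSeries A} (hf : PB a f) (n : ℕ) :
    (f ^ n).coeff ((n : ℤ) * a) = f.coeff a ^ n := by
  induction n with
  | zero => simp
  | succ n ih =>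
    rw [pow_succ, pow_succ, ← ih, ← (hf.pow n).coeff_mul hf]
    congr 1
    push_cast
    ring


/-! ### Integers and evaluation of integral polynomials -/

theorem intCast_eq_C (z : ℤ) : ((z : ℤ) : LaurentSeries A) = HahnSeries.C (z : A) :=
  (map_intCast (HahnSeries.C : A →+* LaurentSeries A) z).symm

theorem PB.intCast (z : ℤ) : PB 0 ((z : ℤ) : LaurentSeries A) := fun m hm => by
  rw [intCast_eq_C, HahnSeries.C_apply, HahnSeries.coeff_single_of_ne (ne_of_lt hm)]

theorem coeff_intCast_zero (z : ℤ) : ((z : ℤ) : LaurentSeries A).coeff 0 = (z : A) := by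
  rw [intCast_eq_C, HahnSeries.C_apply, HahnSeries.coeff_single_same]

/-- Evaluation of an integral polynomial at a Laurent series. -/
noncomputable def ev (y : LaurentSeries A) (c : Polynomial ℤ) : LaurentSeries A :=
  Polynomial.eval₂ (Int.castRingHom (LaurentSeries A)) y c

theorem ev_eq_sum (y : LaurentSeries A) (c : Polynomial ℤ) (N : ℕ) (hc : c.natDegree ≤ N) :
    ev y c = ∑ k ∈ Finset.range (N + 1), ((c.coeff k : ℤ) : LaurentSeries A) * y ^ k := by
  rw [ev, Polynomial.eval₂_eq_sum_range' _ (Nat.lt_succ_of_le hc)]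
  rfl

theorem pb_term {p : ℕ} {y : LaurentSeries A} (hy : PB (-(p : ℤ)) y) (z : ℤ) (k : ℕ) :
    PB (-((p : ℤ) * k)) (((z : ℤ) : LaurentSeries A) * y ^ k) := by
  have h := (PB.intCast (A := A) z).mul (hy.pow k)
  convert h using 1
  ring

theorem coeff_term {p : ℕ} {y : LaurentSeries A} (hy : PB (-(p : ℤ)) y)
    (hy1 : y.coeff (-(p : ℤ)) = 1) (z : ℤ) (k : ℕ) :
    (((z : ℤ) : LaurentSeries A) * y ^ k).coeff (-((p : ℤ) * k)) = (z : A) := by
  have h := (PB.intCast (A := A) z).coeff_mul (hy.pow k)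
  have e : (0 : ℤ) + (k : ℤ) * -(p : ℤ) = -((p : ℤ) * k) := by ring
  rw [e] at h
  rw [h, coeff_intCast_zero, hy.coeff_pow, hy1, one_pow, mul_one]

/-- `c(y)` has a pole of order at most `p · N` when `deg c ≤ N` and `y` has a pole of order `p`. -/
theorem pb_ev {p : ℕ} {y : LaurentSeries A} (hy : PB (-(p : ℤ)) y) (c : Polynomial ℤ) (N : ℕ)
    (hc : c.natDegree ≤ N) : PB (-((p : ℤ) * N)) (ev y c) := by
  rw [ev_eq_sum y c N hc]
  intro m hm
  rw [HahnSeries.coeff_sum]
  refine Finset.sum_eq_zero fun k hk => ?_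
  have hk' : k ≤ N := Nat.lt_succ_iff.mp (Finset.mem_range.mp hk)
  refine pb_term hy _ k m (lt_of_lt_of_le hm ?_)
  have h1 : (p : ℤ) * k ≤ (p : ℤ) * N :=
    mul_le_mul_of_nonneg_left (by exact_mod_cast hk') (by positivity)
  linarith

/-- The coefficient of `q^(-p N)` in `c(y)`, `deg c ≤ N`. -/
theorem coeff_ev {p : ℕ} (hp : 0 < p) {y : LaurentSeries A} (hy : PB (-(p : ℤ)) y)
    (hy1 : y.coeff (-(p : ℤ)) = 1) (c : Polynomial ℤ) (N : ℕ) (hc : c.natDegree ≤ N) :
    (ev y c).coeff (-((p : ℤ) * N)) = ((c.coeff N : ℤ) : A) := by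
  rw [ev_eq_sum y c N hc, HahnSeries.coeff_sum, Finset.sum_range_succ, Finset.sum_eq_zero,
    zero_add, coeff_term hy hy1]
  intro k hk
  have hk' : k < N := Finset.mem_range.mp hk
  refine pb_term hy _ k _ ?_
  have h1 : (p : ℤ) * k < (p : ℤ) * N :=
    mul_lt_mul_of_pos_left (by exact_mod_cast hk') (by exact_mod_cast hp)
  linarith

/-- Converse bound in characteristic zero: a pole bound for `c(y)` bounds the degree of `c`. -/
theorem natDegree_le_of_pb [CharZero A] {p : ℕ} (hp : 0 < p) {y : LaurentSeries A}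
    (hy : PB (-(p : ℤ)) y) (hy1 : y.coeff (-(p : ℤ)) = 1) (c : Polynomial ℤ) (D : ℕ)
    (h : PB (-((p : ℤ) * D) - ((p : ℤ) - 1)) (ev y c)) : c.natDegree ≤ D := by
  by_contra hcon
  rw [not_le] at hcon
  have h1 := coeff_ev hp hy hy1 c c.natDegree le_rfl
  have h2 : (ev y c).coeff (-((p : ℤ) * c.natDegree)) = 0 := by
    apply h
    have h3 : (p : ℤ) * ((D : ℤ) + 1) ≤ (p : ℤ) * c.natDegree :=
      mul_le_mul_of_nonneg_left (by exact_mod_cast hcon) (by positivity)
    linarith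
  rw [h2] at h1
  have h4 : c.coeff c.natDegree = 0 := by exact_mod_cast h1.symm
  have h5 : c = 0 := Polynomial.leadingCoeff_eq_zero.mp h4
  rw [h5, Polynomial.natDegree_zero] at hcon
  exact Nat.not_lt_zero _ hcon

/-! ### Coefficients of a product of linear factors with simple poles -/

theorem coeff_X_sub_C_mul_succ (r : LaurentSeries A) (T : Polynomial (LaurentSeries A)) (i : ℕ) :
    ((Polynomial.X - Polynomial.C r) * T).coeff (i + 1) = T.coeff i - r * T.coeff (i + 1) := by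
  rw [sub_mul, Polynomial.coeff_sub, Polynomial.coeff_X_mul, Polynomial.coeff_C_mul]

theorem coeff_X_sub_C_mul_zero (r : LaurentSeries A) (T : Polynomial (LaurentSeries A)) :
    ((Polynomial.X - Polynomial.C r) * T).coeff 0 = -(r * T.coeff 0) := by
  rw [sub_mul, Polynomial.coeff_sub, Polynomial.coeff_X_mul_zero, Polynomial.coeff_C_mul, zero_sub]

theorem pb_prod_coeff {ι : Type*} (s : Finset ι) (r : ι → LaurentSeries A)
    (hr : ∀ b ∈ s, PB (-1) (r b)) (i : ℕ) :
    PB ((i : ℤ) - s.card) ((∏ b ∈ s, (Polynomial.X - Polynomial.C (r b))).coeff i) := by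
  classical
  induction s using Finset.induction_on generalizing i with
  | empty =>
    rw [Finset.prod_empty, Finset.card_empty, Polynomial.coeff_one]
    split_ifs with h
    · subst h
      simpa using (PB.one (A := A))
    · exact PB.zero _
  | insert a s ha ih =>
    rw [Finset.prod_insert ha, Finset.card_insert_of_notMem ha]
    have hra := hr a (Finset.mem_insert_self a s)
    have ih' := fun i => ih (fun b hb => hr b (Finset.mem_insert_of_mem hb)) i
    cases i with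
    | zero =>
      rw [coeff_X_sub_C_mul_zero]
      have := (hra.mul (ih' 0)).neg
      convert this using 1
      push_cast
      ring
    | succ i =>
      rw [coeff_X_sub_C_mul_succ]
      have h1 := ih' i
      have h2 := hra.mul (ih' (i + 1))
      refine PB.sub (h1.mono ?_) (h2.mono ?_) <;> push_cast <;> linarith

theorem coeff_prod_coeff_zero {ι : Type*} (s : Finset ι) (r : ι → LaurentSeries A)
    (hr : ∀ b ∈ s, PB (-1) (r b)) :
    ((∏ b ∈ s, (Polynomial.X - Polynomial.C (r b))).coeff 0).coeff (-(s.card : ℤ)) =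
      ∏ b ∈ s, (-(r b).coeff (-1)) := by
  classical
  induction s using Finset.induction_on with
  | empty => simp
  | insert a s ha ih =>
    have hra := hr a (Finset.mem_insert_self a s)
    have hs : ∀ b ∈ s, PB (-1) (r b) := fun b hb => hr b (Finset.mem_insert_of_mem hb)
    have h0 := pb_prod_coeff s r hs 0
    have h0' : PB (-(s.card : ℤ))
        ((∏ b ∈ s, (Polynomial.X - Polynomial.C (r b))).coeff 0) := by simpa using h0
    have hm := hra.coeff_mul h0'
    have e : -((s.card + 1 : ℕ) : ℤ) = -1 + -(s.card : ℤ) := by push_cast; ring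
    rw [Finset.prod_insert ha, Finset.prod_insert ha, Finset.card_insert_of_notMem ha,
      coeff_X_sub_C_mul_zero, HahnSeries.coeff_neg, e, hm, ih hs, neg_mul]

theorem coeff_prod_card {ι : Type*} (s : Finset ι) (r : ι → LaurentSeries A) :
    (∏ b ∈ s, (Polynomial.X - Polynomial.C (r b))).coeff s.card = 1 := by
  nontriviality (LaurentSeries A)
  have hm : (∏ b ∈ s, (Polynomial.X - Polynomial.C (r b))).Monic :=
    Polynomial.monic_prod_of_monic _ _ fun b _ => Polynomial.monic_X_sub_C (r b)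
  have hd : (∏ b ∈ s, (Polynomial.X - Polynomial.C (r b))).natDegree = s.card := by
    rw [Polynomial.natDegree_prod_of_monic _ _ fun b _ => Polynomial.monic_X_sub_C (r b)]
    simp
  rw [← hd]
  exact hm.coeff_natDegree

/-! ### The series `j(c q^k)` -/

theorem pb_jS (c : Aˣ) (k : ℕ) (hk : k ≠ 0) : PB (-(k : ℤ)) (S28.jS A c k) :=
  fun m hm => S28.jS_coeff_of_lt c k hk m hm

theorem coeff_jS_one (k : ℕ) (hk : k ≠ 0) : (S28.jS A 1 k).coeff (-(k : ℤ)) = 1 := by
  rw [S28.jS_coeff_neg 1 k hk]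
  simp

theorem evalY_coeff (y : LaurentSeries A) (Φ : Polynomial (Polynomial ℤ)) (i : ℕ) :
    (S28.evalY y Φ).coeff i = ev y (Φ.coeff i) := by
  rw [S28.evalY, Polynomial.coe_mapRingHom, Polynomial.coeff_map]
  rfl

/-! ### Consequences of the factorisation -/

section Fact

variable {p : ℕ} {Φ : Polynomial (Polynomial ℤ)}

theorem pb_fact_coeff (hp : p ≠ 0) (ζ : Aˣ) (hf : S28.ModPolyFact p Φ A ζ) (i : ℕ) :
    PB ((i : ℤ) - p - p * p) (ev (S28.jS A 1 p) (Φ.coeff i)) := by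
  rw [← evalY_coeff, hf]
  have hpp : p * p ≠ 0 := mul_ne_zero hp hp
  have hr0 := pb_jS (A := A) 1 (p * p) hpp
  have hT := pb_prod_coeff (Finset.range p) (fun b => S28.jS A (ζ ^ b) 1)
    (fun b _ => by simpa using pb_jS (A := A) (ζ ^ b) 1 one_ne_zero)
  rw [Finset.card_range] at hT
  have hp1 : (1 : ℤ) ≤ (p : ℤ) * p := by
    have : 1 ≤ p * p := Nat.one_le_iff_ne_zero.mpr hpp
    exact_mod_cast this
  cases i with
  | zero =>
    rw [coeff_X_sub_C_mul_zero]
    have := (hr0.mul (hT 0)).neg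
    convert this using 1
    push_cast
    ring
  | succ i =>
    rw [coeff_X_sub_C_mul_succ]
    have h1 := hT i
    have h2 := hr0.mul (hT (i + 1))
    refine PB.sub (h1.mono ?_) (h2.mono ?_) <;> push_cast <;> linarith

theorem coeff_fact_zero (hp : p ≠ 0) (ζ : Aˣ) (hf : S28.ModPolyFact p Φ A ζ) :
    (ev (S28.jS A 1 p) (Φ.coeff 0)).coeff (-((p : ℤ) * ((p + 1 : ℕ) : ℤ))) =
      -∏ b ∈ Finset.range p, (-(((ζ ^ b)⁻¹ : Aˣ) : A)) := by
  rw [← evalY_coeff, hf]
  have hpp : p * p ≠ 0 := mul_ne_zero hp hp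
  have hr0 := pb_jS (A := A) 1 (p * p) hpp
  have hr : ∀ b ∈ Finset.range p, PB (-1) (S28.jS A (ζ ^ b) 1) :=
    fun b _ => by simpa using pb_jS (A := A) (ζ ^ b) 1 one_ne_zero
  have hT := pb_prod_coeff (Finset.range p) (fun b => S28.jS A (ζ ^ b) 1) hr 0
  have hT' : PB (-(p : ℤ)) ((∏ b ∈ Finset.range p,
      (Polynomial.X - Polynomial.C (S28.jS A (ζ ^ b) 1))).coeff 0) := by
    simpa using hT
  have hc := coeff_prod_coeff_zero (Finset.range p) (fun b => S28.jS A (ζ ^ b) 1) hr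
  rw [Finset.card_range] at hc
  have hm := hr0.coeff_mul hT'
  have e : -((p : ℤ) * ((p + 1 : ℕ) : ℤ)) = -((p * p : ℕ) : ℤ) + -(p : ℤ) := by push_cast; ring
  rw [coeff_X_sub_C_mul_zero, HahnSeries.coeff_neg, e, hm, coeff_jS_one _ hpp, one_mul, hc]
  congr 1
  refine Finset.prod_congr rfl fun b _ => ?_
  have := S28.jS_coeff_neg (R := A) (ζ ^ b) 1 one_ne_zero
  simpa using congrArg Neg.neg this

theorem coeff_fact_prime (hp : 2 ≤ p) (ζ : Aˣ) (hf : S28.ModPolyFact p Φ A ζ) :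
    (ev (S28.jS A 1 p) (Φ.coeff p)).coeff (-((p : ℤ) * (p : ℤ))) = -1 := by
  rw [← evalY_coeff, hf]
  have hp0 : p ≠ 0 := by omega
  have hpp : p * p ≠ 0 := mul_ne_zero hp0 hp0
  have hr : ∀ b ∈ Finset.range p, PB (-1) (S28.jS A (ζ ^ b) 1) :=
    fun b _ => by simpa using pb_jS (A := A) (ζ ^ b) 1 one_ne_zero
  obtain ⟨k, rfl⟩ : ∃ k, p = k + 1 := ⟨p - 1, by omega⟩
  have hT := pb_prod_coeff (Finset.range (k + 1)) (fun b => S28.jS A (ζ ^ b) 1) hr k
  have hTp := coeff_prod_card (Finset.range (k + 1)) (fun b => S28.jS A (ζ ^ b) 1)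
  rw [Finset.card_range] at hT hTp
  rw [coeff_X_sub_C_mul_succ, hTp, mul_one, HahnSeries.coeff_sub]
  have h1 : (S28.jS A 1 ((k + 1) * (k + 1))).coeff (-(((k + 1 : ℕ) : ℤ) * ((k + 1 : ℕ) : ℤ))) = 1 := by
    have := coeff_jS_one (A := A) _ hpp
    simpa using this
  rw [h1, hT, zero_sub]
  have hk : (1 : ℤ) ≤ k := by
    have : 1 ≤ k := by omega
    exact_mod_cast this
  push_cast
  nlinarith

end Fact

/-! ### Degrees of the coefficients of a modular polynomial -/

section ModPoly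

variable {p : ℕ} {Φ : Polynomial (Polynomial ℤ)}

theorem exists_zeta_complex (hp : p ≠ 0) : ∃ ζ : ℂˣ, IsPrimitiveRoot ζ p := by
  have h := Complex.isPrimitiveRoot_exp p hp
  obtain ⟨u, hu⟩ := h.isUnit hp
  exact ⟨u, IsPrimitiveRoot.coe_units_iff.mp (by rw [hu]; exact h)⟩

/-- (D2) For `i ≥ 1` the coefficient of `X^i` in `Φ` has `Y`-degree at most `p`. -/
theorem natDegree_coeff_le_of_pos (hp : p.Prime) (hΦ : S28.IsModPoly p Φ) (i : ℕ) (hi : 1 ≤ i) :
    (Φ.coeff i).natDegree ≤ p := by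
  obtain ⟨ζ, hζ⟩ := exists_zeta_complex hp.ne_zero
  have hf := hΦ.fact ℂ ζ hζ
  have hb := pb_fact_coeff hp.ne_zero ζ hf i
  refine natDegree_le_of_pb hp.pos (pb_jS 1 p hp.ne_zero) (coeff_jS_one p hp.ne_zero) _ p
    (hb.mono ?_)
  have : (1 : ℤ) ≤ i := by exact_mod_cast hi
  linarith

theorem natDegree_coeff_zero_le (hp : p.Prime) (hΦ : S28.IsModPoly p Φ) :
    (Φ.coeff 0).natDegree ≤ p + 1 := by
  obtain ⟨ζ, hζ⟩ := exists_zeta_complex hp.ne_zero
  have hf := hΦ.fact ℂ ζ hζ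
  have hb := pb_fact_coeff hp.ne_zero ζ hf 0
  refine natDegree_le_of_pb hp.pos (pb_jS 1 p hp.ne_zero) (coeff_jS_one p hp.ne_zero) _ (p + 1)
    (hb.mono ?_)
  have : (1 : ℤ) ≤ p := by exact_mod_cast hp.pos
  push_cast
  linarith

/-- (D1) Every coefficient of `Φ` has `Y`-degree at most `p + 1`. -/
theorem natDegree_coeff_le (hp : p.Prime) (hΦ : S28.IsModPoly p Φ) (i : ℕ) :
    (Φ.coeff i).natDegree ≤ p + 1 := by
  rcases Nat.eq_zero_or_pos i with h | h
  · rw [h]
    exact natDegree_coeff_zero_le hp hΦ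
  · exact (natDegree_coeff_le_of_pos hp hΦ i h).trans (Nat.le_succ p)

theorem isUnit_coeff_zero_coeff (hp : p.Prime) (hΦ : S28.IsModPoly p Φ) :
    IsUnit ((Φ.coeff 0).coeff (p + 1)) := by
  obtain ⟨ζ, hζ⟩ := exists_zeta_complex hp.ne_zero
  have hf := hΦ.fact ℂ ζ hζ
  have h1 := coeff_ev hp.pos (pb_jS (A := ℂ) 1 p hp.ne_zero) (coeff_jS_one p hp.ne_zero)
    (Φ.coeff 0) (p + 1) (natDegree_coeff_zero_le hp hΦ)
  rw [coeff_fact_zero hp.ne_zero ζ hf] at h1
  have hv : ∀ b : ℕ, (((ζ ^ b)⁻¹ : ℂˣ) : ℂ) ^ (2 * p) = 1 := by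
    intro b
    have h2 : ((ζ ^ b)⁻¹ : ℂˣ) ^ (2 * p) = 1 := by
      rw [inv_pow, ← pow_mul, show b * (2 * p) = p * (2 * b) by ring, pow_mul, hζ.pow_eq_one,
        one_pow, inv_one]
    rw [← Units.val_pow_eq_pow_val, h2, Units.val_one]
  have h3 : ((((Φ.coeff 0).coeff (p + 1) : ℤ) : ℂ)) ^ (2 * p) = 1 := by
    rw [← h1, Even.neg_pow ⟨p, by ring⟩, ← Finset.prod_pow]
    refine Finset.prod_eq_one fun b _ => ?_
    rw [Even.neg_pow ⟨p, by ring⟩, hv b]
  have h4 : ((Φ.coeff 0).coeff (p + 1)) ^ (2 * p) = 1 := by exact_mod_cast h3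
  exact IsUnit.of_pow_eq_one h4 (mul_ne_zero two_ne_zero hp.ne_zero)

/-- (D3) The constant coefficient `Φ(0, Y)` has `Y`-degree exactly `p + 1`. -/
theorem natDegree_coeff_zero (hp : p.Prime) (hΦ : S28.IsModPoly p Φ) :
    (Φ.coeff 0).natDegree = p + 1 :=
  Polynomial.natDegree_eq_of_le_of_coeff_ne_zero (natDegree_coeff_zero_le hp hΦ)
    (isUnit_coeff_zero_coeff hp hΦ).ne_zero

/-- (D3) The leading coefficient of `Φ(0, Y)` is a unit of `ℤ`. -/
theorem isUnit_leadingCoeff_coeff_zero (hp : p.Prime) (hΦ : S28.IsModPoly p Φ) :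
    IsUnit (Φ.coeff 0).leadingCoeff := by
  rw [Polynomial.leadingCoeff, natDegree_coeff_zero hp hΦ]
  exact isUnit_coeff_zero_coeff hp hΦ

theorem coeff_prime_coeff (hp : p.Prime) (hΦ : S28.IsModPoly p Φ) :
    (Φ.coeff p).coeff p = -1 := by
  obtain ⟨ζ, hζ⟩ := exists_zeta_complex hp.ne_zero
  have hf := hΦ.fact ℂ ζ hζ
  have h1 := coeff_ev hp.pos (pb_jS (A := ℂ) 1 p hp.ne_zero) (coeff_jS_one p hp.ne_zero)
    (Φ.coeff p) p (natDegree_coeff_le_of_pos hp hΦ p hp.pos)
  rw [coeff_fact_prime hp.two_le ζ hf] at h1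
  exact_mod_cast h1.symm

/-- (D4) The coefficient of `X^p` in `Φ` has `Y`-degree exactly `p`. -/
theorem natDegree_coeff_prime (hp : p.Prime) (hΦ : S28.IsModPoly p Φ) :
    (Φ.coeff p).natDegree = p :=
  Polynomial.natDegree_eq_of_le_of_coeff_ne_zero (natDegree_coeff_le_of_pos hp hΦ p hp.pos)
    (by rw [coeff_prime_coeff hp hΦ]; norm_num)

/-- (D4) The leading coefficient of the coefficient of `X^p` in `Φ` is `-1`
(the Kronecker term `-X^p Y^p`). -/
theorem leadingCoeff_coeff_prime (hp : p.Prime) (hΦ : S28.IsModPoly p Φ) :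
    (Φ.coeff p).leadingCoeff = -1 := by
  rw [Polynomial.leadingCoeff, natDegree_coeff_prime hp hΦ]
  exact coeff_prime_coeff hp hΦ

theorem prod_neg_inv_zeta (hp : p.Prime) (ζ : ℂˣ) (hζ : IsPrimitiveRoot ζ p) :
    ∏ b ∈ Finset.range p, (-(((ζ ^ b)⁻¹ : ℂˣ) : ℂ)) = -1 := by
  have key : ∏ b ∈ Finset.range p, (-(ζ ^ b)⁻¹ : ℂˣ) = -1 := by
    rcases hp.eq_two_or_odd' with h2 | ⟨k, hk⟩
    · subst h2
      have hz' : (ζ : ℂ) = -1 := (IsPrimitiveRoot.coe_units_iff.mpr hζ).eq_neg_one_of_two_right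
      have hz : ζ = -1 := Units.ext (by rw [hz']; simp)
      rw [hz]
      simp [Finset.prod_range_succ]
    · have hsum : ∑ b ∈ Finset.range p, b = p * k := by
        have h3 := Finset.sum_range_id_mul_two p
        have h4 : p - 1 = 2 * k := by omega
        rw [h4] at h3
        have h5 : (∑ b ∈ Finset.range p, b) * 2 = (p * k) * 2 := by rw [h3]; ring
        exact Nat.eq_of_mul_eq_mul_right (by norm_num) h5
      have h1 : ∏ b ∈ Finset.range p, (-(ζ ^ b)⁻¹ : ℂˣ) =
          ∏ b ∈ Finset.range p, ((-1) * (ζ ^ b)⁻¹ : ℂˣ) := by simp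
      rw [h1, Finset.prod_mul_distrib, Finset.prod_const, Finset.card_range,
        Finset.prod_inv_distrib, Finset.prod_pow_eq_pow_sum, hsum, pow_mul, hζ.pow_eq_one, one_pow,
        inv_one, mul_one, Odd.neg_one_pow ⟨k, hk⟩]
  have h := congrArg Units.val key
  rw [Units.coe_prod] at h
  simpa using h

/-- The coefficient of `Y^(p+1)` in `Φ(0, Y)` is `1`. -/
theorem coeff_zero_coeff (hp : p.Prime) (hΦ : S28.IsModPoly p Φ) :
    (Φ.coeff 0).coeff (p + 1) = 1 := by
  obtain ⟨ζ, hζ⟩ := exists_zeta_complex hp.ne_zero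
  have hf := hΦ.fact ℂ ζ hζ
  have h1 := coeff_ev hp.pos (pb_jS (A := ℂ) 1 p hp.ne_zero) (coeff_jS_one p hp.ne_zero)
    (Φ.coeff 0) (p + 1) (natDegree_coeff_zero_le hp hΦ)
  rw [coeff_fact_zero hp.ne_zero ζ hf, prod_neg_inv_zeta hp ζ hζ, neg_neg] at h1
  exact_mod_cast h1.symm

/-- (D3, sharp form) `Φ(0, Y)` is monic (of degree `p + 1`). -/
theorem monic_coeff_zero (hp : p.Prime) (hΦ : S28.IsModPoly p Φ) : (Φ.coeff 0).Monic :=
  Polynomial.monic_of_natDegree_le_of_coeff_eq_one (p + 1) (natDegree_coeff_zero_le hp hΦ)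
    (coeff_zero_coeff hp hΦ)

theorem coeff_succ_prime (hΦ : S28.IsModPoly p Φ) : Φ.coeff (p + 1) = 1 := by
  have h := hΦ.monic.coeff_natDegree
  rwa [hΦ.natDegree_eq] at h

end ModPoly

/-! ### The cusp charts -/

section Cusp

variable {B : Type*} [CommRing B]

theorem eval₂_reflect_of_mul_eq_one (y y' : B) (h : y * y' = 1) (N : ℕ)
    (f : Polynomial ℤ) (hf : f.natDegree ≤ N) :
    Polynomial.eval₂ (Int.castRingHom B) y' (Polynomial.reflect N f) =
      Polynomial.eval₂ (Int.castRingHom B) y f * y' ^ N := by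
  let inst : Invertible y := ⟨y', by rw [mul_comm]; exact h, h⟩
  have h1 := Polynomial.eval₂_reflect_mul_pow (Int.castRingHom B) y N f hf
  have h2 : ⅟y = y' := rfl
  rw [h2] at h1
  rw [← h1, mul_assoc, ← mul_pow, h, one_pow, mul_one]

theorem evalY_eval_eq_sum (y x : B) (Ψ : Polynomial (Polynomial ℤ)) (n : ℕ)
    (hn : Ψ.natDegree < n) :
    (S28.evalY y Ψ).eval x =
      ∑ i ∈ Finset.range n, Polynomial.eval₂ (Int.castRingHom B) y (Ψ.coeff i) * x ^ i := by
  rw [S28.evalY_eval, Polynomial.eval₂_eq_sum_range' _ hn]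
  rfl

theorem coeff_sum_C_mul_X_pow (n : ℕ) (a : ℕ → Polynomial ℤ) (j : ℕ) :
    (∑ i ∈ Finset.range n, Polynomial.C (a i) * Polynomial.X ^ i).coeff j =
      if j < n then a j else 0 := by
  rw [Polynomial.finsetSum_coeff]
  simp only [Polynomial.coeff_C_mul_X_pow]
  rw [Finset.sum_ite_eq]
  simp

theorem evalY_eval_sum (y x : B) (n : ℕ) (a : ℕ → Polynomial ℤ) :
    (S28.evalY y (∑ i ∈ Finset.range n, Polynomial.C (a i) * Polynomial.X ^ i)).eval x =
      ∑ i ∈ Finset.range n, Polynomial.eval₂ (Int.castRingHom B) y (a i) * x ^ i := by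
  rw [S28.evalY_eval, Polynomial.eval₂_finsetSum]
  refine Finset.sum_congr rfl fun i _ => ?_
  rw [Polynomial.eval₂_mul, Polynomial.eval₂_C, Polynomial.eval₂_pow, Polynomial.eval₂_X]
  rfl

/-- The reciprocal polynomial `Q(X', Y') = X'^(p+1) Y'^(p+1) Φ(1/X', 1/Y')`. -/
noncomputable def cuspPoly (p : ℕ) (Φ : Polynomial (Polynomial ℤ)) : Polynomial (Polynomial ℤ) :=
  ∑ j ∈ Finset.range (p + 2),
    Polynomial.C (Polynomial.reflect (p + 1) (Φ.coeff (p + 1 - j))) * Polynomial.X ^ j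

/-- The polynomial `P(U, Y') = Y'^(p(p+1)) Φ(U / Y'^p, 1/Y')`, monic in `U`. -/
noncomputable def monicCuspPoly (p : ℕ) (Φ : Polynomial (Polynomial ℤ)) :
    Polynomial (Polynomial ℤ) :=
  ∑ i ∈ Finset.range (p + 2),
    Polynomial.C (Polynomial.reflect (p * (p + 1 - i)) (Φ.coeff i)) * Polynomial.X ^ i

variable {p : ℕ} {Φ : Polynomial (Polynomial ℤ)}

theorem cuspPoly_coeff (j : ℕ) :
    (cuspPoly p Φ).coeff j =
      if j < p + 2 then Polynomial.reflect (p + 1) (Φ.coeff (p + 1 - j)) else 0 :=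
  coeff_sum_C_mul_X_pow (p + 2) _ j

theorem monicCuspPoly_coeff (i : ℕ) :
    (monicCuspPoly p Φ).coeff i =
      if i < p + 2 then Polynomial.reflect (p * (p + 1 - i)) (Φ.coeff i) else 0 :=
  coeff_sum_C_mul_X_pow (p + 2) _ i

/-- (CUSP) `Q(x', y') = y'^(p+1) x'^(p+1) Φ(x, y)` whenever `x x' = 1` and `y y' = 1`. -/
theorem cuspPoly_eval (hp : p.Prime) (hΦ : S28.IsModPoly p Φ) (x y x' y' : B)
    (hx : x * x' = 1) (hy : y * y' = 1) :
    (S28.evalY y' (cuspPoly p Φ)).eval x' =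
      y' ^ (p + 1) * x' ^ (p + 1) * (S28.evalY y Φ).eval x := by
  rw [cuspPoly, evalY_eval_sum,
    evalY_eval_eq_sum y x Φ (p + 2) (by rw [hΦ.natDegree_eq]; exact Nat.lt_succ_self _),
    ← Finset.sum_range_reflect (fun i => Polynomial.eval₂ (Int.castRingHom B) y (Φ.coeff i) * x ^ i),
    Finset.mul_sum]
  refine Finset.sum_congr rfl fun j hj => ?_
  have hj' : j ≤ p + 1 := Nat.lt_succ_iff.mp (Finset.mem_range.mp hj)
  have e1 : p + 2 - 1 - j = p + 1 - j := by omega
  have e2 : x' ^ j = x' ^ (p + 1) * x ^ (p + 1 - j) := by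
    have h3 : x' ^ (p + 1) = x' ^ j * x' ^ (p + 1 - j) := by
      rw [← pow_add]
      congr 1
      omega
    rw [h3, mul_assoc, ← mul_pow, mul_comm x' x, hx, one_pow, mul_one]
  rw [e1, eval₂_reflect_of_mul_eq_one y y' hy (p + 1) _ (natDegree_coeff_le hp hΦ _), e2]
  ring

/-- (CUSP) `Φ(x, y) = 0` implies `Q(1/x, 1/y) = 0`. -/
theorem cuspPoly_eval_eq_zero (hp : p.Prime) (hΦ : S28.IsModPoly p Φ) (x y x' y' : B)
    (hx : x * x' = 1) (hy : y * y' = 1) (h : (S28.evalY y Φ).eval x = 0) :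
    (S28.evalY y' (cuspPoly p Φ)).eval x' = 0 := by
  rw [cuspPoly_eval hp hΦ x y x' y' hx hy, h, mul_zero]

theorem cuspPoly_coeff_top_coeff_zero :
    ((cuspPoly p Φ).coeff (p + 1)).coeff 0 = (Φ.coeff 0).coeff (p + 1) := by
  rw [cuspPoly_coeff, if_pos (Nat.lt_succ_self _), Polynomial.coeff_reflect, Polynomial.revAt_zero,
    Nat.sub_self]

theorem cuspPoly_natDegree (hp : p.Prime) (hΦ : S28.IsModPoly p Φ) :
    (cuspPoly p Φ).natDegree = p + 1 := by
  refine Polynomial.natDegree_eq_of_le_of_coeff_ne_zero ?_ ?_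
  · rw [Polynomial.natDegree_le_iff_coeff_eq_zero]
    intro N hN
    rw [cuspPoly_coeff, if_neg (by omega)]
  · intro h0
    have h1 := cuspPoly_coeff_top_coeff_zero (p := p) (Φ := Φ)
    rw [h0, Polynomial.coeff_zero] at h1
    exact (isUnit_coeff_zero_coeff hp hΦ).ne_zero h1.symm

theorem isUnit_cuspPoly_leadingCoeff_coeff_zero (hp : p.Prime) (hΦ : S28.IsModPoly p Φ) :
    IsUnit ((cuspPoly p Φ).leadingCoeff.coeff 0) := by
  rw [Polynomial.leadingCoeff, cuspPoly_natDegree hp hΦ, cuspPoly_coeff_top_coeff_zero]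
  exact isUnit_coeff_zero_coeff hp hΦ

theorem cuspPoly_leadingCoeff_coeff_zero (hp : p.Prime) (hΦ : S28.IsModPoly p Φ) :
    (cuspPoly p Φ).leadingCoeff.coeff 0 = 1 := by
  rw [Polynomial.leadingCoeff, cuspPoly_natDegree hp hΦ, cuspPoly_coeff_top_coeff_zero]
  exact coeff_zero_coeff hp hΦ

/-- `Q(X', 0) = X'^(p+1)`: above `y' = 0` only `x' = 0` occurs. -/
theorem cuspPoly_coeff_coeff_zero (hp : p.Prime) (hΦ : S28.IsModPoly p Φ) (j : ℕ)
    (hj : j ≠ p + 1) : ((cuspPoly p Φ).coeff j).coeff 0 = 0 := by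
  rw [cuspPoly_coeff]
  split_ifs with h
  · rw [Polynomial.coeff_reflect, Polynomial.revAt_zero]
    refine Polynomial.coeff_eq_zero_of_natDegree_lt (lt_of_le_of_lt
      (natDegree_coeff_le_of_pos hp hΦ _ ?_) (Nat.lt_succ_self p))
    omega
  · exact Polynomial.coeff_zero 0

theorem natDegree_coeff_le_mul (hp : p.Prime) (hΦ : S28.IsModPoly p Φ) (i : ℕ) (hi : i ≤ p + 1) :
    (Φ.coeff i).natDegree ≤ p * (p + 1 - i) := by
  have h2 := hp.two_le
  rcases Nat.eq_zero_or_pos i with h | h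
  · rw [h]
    refine (natDegree_coeff_zero_le hp hΦ).trans ?_
    rw [Nat.sub_zero]
    exact Nat.le_mul_of_pos_left _ hp.pos
  · rcases Nat.lt_or_ge i (p + 1) with h' | h'
    · refine (natDegree_coeff_le_of_pos hp hΦ i h).trans ?_
      exact Nat.le_mul_of_pos_right _ (by omega)
    · have hi' : i = p + 1 := le_antisymm hi h'
      rw [hi', coeff_succ_prime hΦ, Polynomial.natDegree_one]
      exact Nat.zero_le _

/-- (MONIC-U) `P(x y'^p, y') = y'^(p(p+1)) Φ(x, y)` whenever `y y' = 1`. -/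
theorem monicCuspPoly_eval (hp : p.Prime) (hΦ : S28.IsModPoly p Φ) (x y y' : B)
    (hy : y * y' = 1) :
    (S28.evalY y' (monicCuspPoly p Φ)).eval (x * y' ^ p) =
      y' ^ (p * (p + 1)) * (S28.evalY y Φ).eval x := by
  rw [monicCuspPoly, evalY_eval_sum,
    evalY_eval_eq_sum y x Φ (p + 2) (by rw [hΦ.natDegree_eq]; exact Nat.lt_succ_self _),
    Finset.mul_sum]
  refine Finset.sum_congr rfl fun i hi => ?_
  have hi' : i ≤ p + 1 := Nat.lt_succ_iff.mp (Finset.mem_range.mp hi)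
  have e2 : y' ^ (p * (p + 1)) = y' ^ (p * (p + 1 - i)) * (y' ^ p) ^ i := by
    rw [← pow_mul, ← pow_add, ← Nat.mul_add]
    congr 2
    omega
  rw [eval₂_reflect_of_mul_eq_one y y' hy _ _ (natDegree_coeff_le_mul hp hΦ i hi'), e2, mul_pow]
  ring

/-- (MONIC-U) `Φ(x, y) = 0` implies `P(x / y^p, 1/y) = 0`. -/
theorem monicCuspPoly_eval_eq_zero (hp : p.Prime) (hΦ : S28.IsModPoly p Φ) (x y y' : B)
    (hy : y * y' = 1) (h : (S28.evalY y Φ).eval x = 0) :
    (S28.evalY y' (monicCuspPoly p Φ)).eval (x * y' ^ p) = 0 := by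
  rw [monicCuspPoly_eval hp hΦ x y y' hy, h, mul_zero]

theorem monicCuspPoly_coeff_top (hΦ : S28.IsModPoly p Φ) :
    (monicCuspPoly p Φ).coeff (p + 1) = 1 := by
  rw [monicCuspPoly_coeff, if_pos (Nat.lt_succ_self _), coeff_succ_prime hΦ, Nat.sub_self,
    Nat.mul_zero, ← Polynomial.C_1, Polynomial.reflect_C, pow_zero, mul_one]

theorem monicCuspPoly_natDegree_le : (monicCuspPoly p Φ).natDegree ≤ p + 1 := by
  rw [Polynomial.natDegree_le_iff_coeff_eq_zero]
  intro N hN
  rw [monicCuspPoly_coeff, if_neg (by omega)]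

theorem monicCuspPoly_monic (hΦ : S28.IsModPoly p Φ) : (monicCuspPoly p Φ).Monic :=
  Polynomial.monic_of_natDegree_le_of_coeff_eq_one (p + 1) monicCuspPoly_natDegree_le
    (monicCuspPoly_coeff_top hΦ)

theorem monicCuspPoly_natDegree (hΦ : S28.IsModPoly p Φ) :
    (monicCuspPoly p Φ).natDegree = p + 1 :=
  Polynomial.natDegree_eq_of_le_of_coeff_ne_zero monicCuspPoly_natDegree_le
    (by rw [monicCuspPoly_coeff_top hΦ]; exact one_ne_zero)

/-- `P(U, 0) = U^(p+1) - U^p = U^p (U - 1)`: the two cusps above `y' = 0` are `u = 1`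
(simple) and `u = 0` (of multiplicity `p`). -/
theorem monicCuspPoly_coeff_coeff_zero (hp : p.Prime) (hΦ : S28.IsModPoly p Φ) (i : ℕ) :
    ((monicCuspPoly p Φ).coeff i).coeff 0 =
      if i = p + 1 then 1 else if i = p then -1 else 0 := by
  have h2 := hp.two_le
  by_cases h1 : i = p + 1
  · rw [if_pos h1, h1, monicCuspPoly_coeff_top hΦ, Polynomial.coeff_one_zero]
  rw [if_neg h1, monicCuspPoly_coeff]
  by_cases h3 : i = p
  · rw [if_pos h3, h3, if_pos (by omega), Polynomial.coeff_reflect, Polynomial.revAt_zero,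
      show p + 1 - p = 1 by omega, Nat.mul_one, coeff_prime_coeff hp hΦ]
  rw [if_neg h3]
  split_ifs with h
  · rw [Polynomial.coeff_reflect, Polynomial.revAt_zero]
    apply Polynomial.coeff_eq_zero_of_natDegree_lt
    rcases Nat.eq_zero_or_pos i with h0 | h0
    · rw [h0, Nat.sub_zero]
      refine lt_of_le_of_lt (natDegree_coeff_zero_le hp hΦ) ?_
      nlinarith
    · refine lt_of_le_of_lt (natDegree_coeff_le_of_pos hp hΦ i h0) ?_
      have h5 : 2 ≤ p + 1 - i := by omega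
      nlinarith
  · exact Polynomial.coeff_zero 0

end Cusp

end Fermat.Agent.S34.H59
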