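import Fermat.Agent.S34.H60.HUnr
import Fermat.Agent.S34.H60.HUnrPoint
import Fermat.Agent.S34.H36.HeightChart
import Fermat.Agent.S34.H44.Charts

/-!
# B' (M6b), `hunr` at chart level, abstract form (helper59)

Over a discrete valuation ring `A₀` with a natural number `q` as uniformiser (the unramified base
`A ∩ E`), let `S₀ = chart A₀ x` and `C₀ = chart A₀ y` be charts (`S18.H19.chart`) of `K₀`-forms
`F₀M ⊆ FM`, `F₀N ⊆ FN` of two function fields, with ANY algebra structure `S₀ → C₀` restricting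
`α : FM → FN`.  All the plumbing of `H60.forall_unramified_of_places(_le)` is discharged from
`Transcendental A₀ x`, `Module.Finite (ratSub A₀ x) F₀M` (= `DSetup.transc`, `DSetup.finite`) and
the same at the upper level: noetherian / integrally closed / fraction ring instances,
integrality of `C₀` over `S₀`, `hconst`, `hht`.  What remains is `hcomp` and `he`.

* `chart_le_chart_of_mem` : transitivity of charts;
* `exists_pow_mul_eq_algebraMap` : `K₀ = A₀[1/ϖ]`;
* `hunr_chart_le` : pointwise form (primes over a given ideal `s` of `S₀`; the conclusion is the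
  hypothesis `hunr` of `H36.crossing_regular_le` / `hunr_of_chart_le`);
* `hunr_chart` : global form (the conclusion of `H60.forall_unramified_of_places`, the hypothesis
  `hunr` of `H68.crossing_regular_of_dsetup`).
-/

set_option autoImplicit false

open IntermediateField AlgebraicCurve Polynomial

noncomputable section

namespace Fermat.Agent.S34.H59

open Fermat.Agent.S18 Fermat.Agent.S18.H19

/-! ### Charts -/

section Charts

variable {A₀ F₀ : Type*} [CommRing A₀] [Field F₀] [Algebra A₀ F₀]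

/-- The chart of `t` is contained in the chart of `t'` as soon as `t` lies in the chart of
`t'`. -/
theorem chart_le_chart_of_mem {t t' : F₀} (h : t ∈ chart A₀ t') : chart A₀ t ≤ chart A₀ t' := by
  intro y hy
  rw [mem_chart_iff] at hy ⊢
  have hle : Algebra.adjoin A₀ ({t} : Set F₀) ≤ chart A₀ t' :=
    Algebra.adjoin_le (Set.singleton_subset_iff.2 h)
  let φ : ↥(Algebra.adjoin A₀ ({t} : Set F₀)) →+*
      ↥(integralClosure (Algebra.adjoin A₀ ({t'} : Set F₀)) F₀) :=
    ((Algebra.adjoin A₀ ({t} : Set F₀)).val :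
      ↥(Algebra.adjoin A₀ ({t} : Set F₀)) →+* F₀).codRestrict
      (integralClosure (Algebra.adjoin A₀ ({t'} : Set F₀)) F₀) (fun b => hle b.2)
  have h1 : IsIntegral ↥(integralClosure (Algebra.adjoin A₀ ({t'} : Set F₀)) F₀) y :=
    IsIntegral.map_of_comp_eq φ (RingHom.id F₀) (RingHom.ext fun b => rfl) hy
  exact isIntegral_trans y h1

end Charts

/-! ### Constants -/

section Const

/-- In a discrete valuation ring with uniformiser `ϖ`, every element of the fraction field
becomes integral after multiplication by a power of `ϖ`. -/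
theorem exists_pow_mul_eq_algebraMap {A₀ K₀ : Type*} [CommRing A₀] [IsDomain A₀]
    [IsDiscreteValuationRing A₀] [Field K₀] [Algebra A₀ K₀] [IsFractionRing A₀ K₀] (ϖ : A₀)
    (hϖ : Irreducible ϖ) (a : K₀) :
    ∃ (n : ℕ) (c : A₀), algebraMap A₀ K₀ (ϖ ^ n) * a = algebraMap A₀ K₀ c := by
  obtain ⟨b, d, hd, rfl⟩ := IsFractionRing.div_surjective A₀ a
  have hd0 : d ≠ 0 := nonZeroDivisors.ne_zero hd
  obtain ⟨n, u, hu⟩ := IsDiscreteValuationRing.eq_unit_mul_pow_irreducible hd0 hϖ
  refine ⟨n, b * ((u⁻¹ : A₀ˣ) : A₀), ?_⟩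
  have hd0' : algebraMap A₀ K₀ d ≠ 0 := by
    rw [Ne, map_eq_zero_iff _ (IsFractionRing.injective A₀ K₀)]
    exact hd0
  rw [mul_div_assoc', eq_comm, eq_div_iff hd0', ← map_mul, ← map_mul, hu]
  congr 1
  have h1 : ((u⁻¹ : A₀ˣ) : A₀) * (u : A₀) = 1 := Units.inv_mul u
  calc b * ((u⁻¹ : A₀ˣ) : A₀) * ((u : A₀) * ϖ ^ n)
      = b * ϖ ^ n * (((u⁻¹ : A₀ˣ) : A₀) * (u : A₀)) := by ring
    _ = ϖ ^ n * b := by rw [h1]; ring

end Const

/-! ### The abstract chart-level statement -/

section AbstractHUnr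

variable {k K : Type*} [Field k] [Field K] [Algebra k K] (K₀ : IntermediateField k K)
  {FM FN : Type*} [Field FM] [Field FN] [Algebra K FM] [Algebra K FN]
  (F0M : IntermediateField K₀ FM) (F0N : IntermediateField K₀ FN)
  {A₀ : Type*} [CommRing A₀] [IsDomain A₀] [IsDiscreteValuationRing A₀] [CharZero A₀]
  [Algebra A₀ K₀] [IsFractionRing A₀ K₀]
  [Algebra A₀ F0M] [FaithfulSMul A₀ F0M]
  [Algebra A₀ F0N] [IsScalarTower A₀ K₀ F0N] [FaithfulSMul A₀ F0N]

/-- **Chart-level (U-GEOM), pointwise form**: over a discrete valuation ring `A₀` with fraction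
field `K₀ ⊆ K` and a natural number `q` as uniformiser, let `S₀ = chart A₀ x ⊆ F₀M` and
`C₀ = chart A₀ y ⊆ F₀N` be charts of `K₀`-forms of two function fields over `K`, with an algebra
structure `S₀ → C₀` restricting `α : FM → FN`, and `s` an ideal of `S₀`.  If every place of `FN`
centred at a prime `Q` of `C₀` over a prime inside `s` has the same orders on `α(FM)` as a place
of `FM`, every such prime `Q` not containing `q` is unramified over `S₀`. -/
theorem hunr_chart_le [Algebra.IsAlgebraic K₀ K] [CharZero K]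
    (q : ℕ) (hqA : Irreducible ((q : ℕ) : A₀))
    (x : F0M) (htr : Transcendental A₀ x) (hfin : Module.Finite ↥(ratSub A₀ x) F0M)
    (y : F0N) (htr' : Transcendental A₀ y) (hfin' : Module.Finite ↥(ratSub A₀ y) F0N)
    [Algebra ↥(chart A₀ x) ↥(chart A₀ y)]
    (α : FM →+* FN) (hαA : ∀ a : A₀, α ((algebraMap A₀ F0M a : F0M) : FM) =
      ((algebraMap A₀ F0N a : F0N) : FN))
    (hαx : α ((x : F0M) : FM) = ((y : F0N) : FN))
    (hcompat : ∀ s : ↥(chart A₀ x),
      (((algebraMap ↥(chart A₀ x) ↥(chart A₀ y) s : ↥(chart A₀ y)) : F0N) : FN) =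
        α (((s : F0M)) : FM))
    (xN : FN) [FiniteDimensional K⟮xN⟯ FN]
    (hcomp : Subfield.closure ((F0M : Set FM) ∪ Set.range (algebraMap K FM)) = ⊤)
    (s : Ideal ↥(chart A₀ x))
    (he : ∀ Q : Ideal ↥(chart A₀ y), Q.IsPrime → ((q : ℕ) : ↥(chart A₀ y)) ∉ Q →
      Q.comap (algebraMap ↥(chart A₀ x) ↥(chart A₀ y)) ≤ s → ∀ w : Place K FN,
      (∀ r ∈ chart A₀ y, ((r : F0N) : FN) ∈ w.toValuationSubring) →
      (∀ r : ↥(chart A₀ y), r ≠ 0 → (r ∈ Q ↔ 0 < w.ord (((r : F0N)) : FN))) →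
      ∃ v : Place K FM, ∀ f : FM, v.ord f = w.ord (α f)) :
    ∀ Q : Ideal ↥(chart A₀ y), Q.IsPrime → ((q : ℕ) : ↥(chart A₀ y)) ∉ Q →
      Q.comap (algebraMap ↥(chart A₀ x) ↥(chart A₀ y)) ≤ s → ∀ a ∈ Q, ∃ b ∉ Q,
      b * a ∈ Ideal.map (algebraMap ↥(chart A₀ x) ↥(chart A₀ y))
        (Q.comap (algebraMap ↥(chart A₀ x) ↥(chart A₀ y))) := by
  -- the polynomial algebra structures and finiteness
  letI algS : Algebra A₀[X] ↥(chart A₀ x) := H95.chartAlgebra (A₀ := A₀) x
  letI algC : Algebra A₀[X] ↥(chart A₀ y) := H95.chartAlgebra (A₀ := A₀) y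
  haveI finS : Module.Finite A₀[X] ↥(chart A₀ x) := H95.chart_finite_sub x htr hfin
  haveI finC : Module.Finite A₀[X] ↥(chart A₀ y) := H95.chart_finite_sub y htr' hfin'
  haveI intS : Algebra.IsIntegral A₀[X] ↥(chart A₀ x) := Algebra.IsIntegral.of_finite _ _
  haveI intC : Algebra.IsIntegral A₀[X] ↥(chart A₀ y) := Algebra.IsIntegral.of_finite _ _
  -- the tower `A₀[X] → S₀ → C₀` (the scalar action is named: instance search for it is slow)
  letI smulSC : SMul ↥(chart A₀ x) ↥(chart A₀ y) := Algebra.toSMul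
  letI modSC : Module ↥(chart A₀ x) ↥(chart A₀ y) := Algebra.toModule
  have hinjN : Function.Injective (fun c : ↥(chart A₀ y) => (((c : F0N)) : FN)) :=
    fun c c' h => Subtype.ext (Subtype.ext h)
  haveI tower : IsScalarTower A₀[X] ↥(chart A₀ x) ↥(chart A₀ y) := by
    refine IsScalarTower.of_algebraMap_eq fun p => ?_
    apply hinjN
    show (((algebraMap A₀[X] ↥(chart A₀ y) p : ↥(chart A₀ y)) : F0N) : FN) =
      (((algebraMap ↥(chart A₀ x) ↥(chart A₀ y) (algebraMap A₀[X] ↥(chart A₀ x) p) :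
        ↥(chart A₀ y)) : F0N) : FN)
    have e1 : ((algebraMap A₀[X] ↥(chart A₀ y) p : ↥(chart A₀ y)) : F0N) = Polynomial.aeval y p :=
      H95.chartAlgebra_apply y p
    have e2 : ((algebraMap A₀[X] ↥(chart A₀ x) p : ↥(chart A₀ x)) : F0M) = Polynomial.aeval x p :=
      H95.chartAlgebra_apply x p
    rw [hcompat, e1, e2, Polynomial.aeval_def, Polynomial.aeval_def]
    have h1 : ((Polynomial.eval₂ (algebraMap A₀ F0N) y p : F0N) : FN) =
        Polynomial.eval₂ ((algebraMap F0N FN).comp (algebraMap A₀ F0N)) ((y : F0N) : FN) p :=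
      Polynomial.hom_eval₂ p (algebraMap A₀ F0N) (algebraMap F0N FN) y
    have h2 : α ((Polynomial.eval₂ (algebraMap A₀ F0M) x p : F0M) : FM) =
        Polynomial.eval₂ ((α.comp (algebraMap F0M FM)).comp (algebraMap A₀ F0M))
          (α ((x : F0M) : FM)) p :=
      Polynomial.hom_eval₂ p (algebraMap A₀ F0M) (α.comp (algebraMap F0M FM)) x
    rw [h1, h2, hαx]
    congr 1
    exact RingHom.ext fun a => (hαA a).symm
  haveI intSC : Algebra.IsIntegral ↥(chart A₀ x) ↥(chart A₀ y) :=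
    Algebra.IsIntegral.tower_top (R := A₀[X])
  -- the chart instances
  haveI : IsNoetherianRing ↥(chart A₀ x) := H44.chart_isNoetherianRing x htr hfin
  haveI : IsNoetherianRing ↥(chart A₀ y) := H44.chart_isNoetherianRing y htr' hfin'
  haveI : IsIntegrallyClosed ↥(chart A₀ x) := H95.isIntegrallyClosed_chart x
  haveI : IsIntegrallyClosed ↥(chart A₀ y) := H95.isIntegrallyClosed_chart y
  haveI : IsFractionRing ↥(chart A₀ x) F0M := H95.chart_isFractionRing_sub x htr hfin
  haveI : IsFractionRing ↥(chart A₀ y) F0N := H95.chart_isFractionRing_sub y htr' hfin'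
  refine H60.forall_unramified_of_places_le K₀ F0M F0N (S := ↥(chart A₀ x))
    (R := ↥(chart A₀ y)) α xN hcomp (fun s => hcompat s) q ?_ s ?_ ?_
  · -- hconst
    intro a
    obtain ⟨n, c, hc⟩ := exists_pow_mul_eq_algebraMap ((q : ℕ) : A₀) hqA a
    refine ⟨n, algebraMap A₀ ↥(chart A₀ y) c, ?_⟩
    have h1 : algebraMap ↥(chart A₀ y) F0N (algebraMap A₀ ↥(chart A₀ y) c) =
        algebraMap K₀ F0N (algebraMap A₀ K₀ c) := by
      rw [← IsScalarTower.algebraMap_apply A₀ K₀ F0N]
      rfl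
    have h2 : algebraMap ↥(chart A₀ y) F0N (((q : ℕ) : ↥(chart A₀ y)) ^ n) =
        algebraMap K₀ F0N (algebraMap A₀ K₀ (((q : ℕ) : A₀) ^ n)) := by
      rw [map_pow, map_pow, map_pow, map_natCast, map_natCast, map_natCast]
    rw [h1, h2, ← hc, map_mul]
  · -- hht
    intro P hP hqP _
    exact H36.height_le_one_of_natCast_notMem q hqA P hqP
  · -- he
    intro Q hQ hqQ hQs w hw hcentre
    exact he Q hQ hqQ hQs w (fun r hr => hw ⟨r, hr⟩) hcentre

/-- **Chart-level (U-GEOM)**, global form: if every place of `FN` centred on `C₀` has the same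
orders on `α(FM)` as a place of `FM`, every prime `Q` of `C₀` not containing `q` is unramified
over `S₀` (the conclusion of `H60.forall_unramified_of_places`). -/
theorem hunr_chart [Algebra.IsAlgebraic K₀ K] [CharZero K]
    (q : ℕ) (hqA : Irreducible ((q : ℕ) : A₀))
    (x : F0M) (htr : Transcendental A₀ x) (hfin : Module.Finite ↥(ratSub A₀ x) F0M)
    (y : F0N) (htr' : Transcendental A₀ y) (hfin' : Module.Finite ↥(ratSub A₀ y) F0N)
    [Algebra ↥(chart A₀ x) ↥(chart A₀ y)]
    (α : FM →+* FN) (hαA : ∀ a : A₀, α ((algebraMap A₀ F0M a : F0M) : FM) =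
      ((algebraMap A₀ F0N a : F0N) : FN))
    (hαx : α ((x : F0M) : FM) = ((y : F0N) : FN))
    (hcompat : ∀ s : ↥(chart A₀ x),
      (((algebraMap ↥(chart A₀ x) ↥(chart A₀ y) s : ↥(chart A₀ y)) : F0N) : FN) =
        α (((s : F0M)) : FM))
    (xN : FN) [FiniteDimensional K⟮xN⟯ FN]
    (hcomp : Subfield.closure ((F0M : Set FM) ∪ Set.range (algebraMap K FM)) = ⊤)
    (he : ∀ w : Place K FN, (∀ r ∈ chart A₀ y, ((r : F0N) : FN) ∈ w.toValuationSubring) →
      ∃ v : Place K FM, ∀ f : FM, v.ord f = w.ord (α f)) :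
    ∀ Q : Ideal ↥(chart A₀ y), Q.IsPrime → ((q : ℕ) : ↥(chart A₀ y)) ∉ Q → ∀ a ∈ Q, ∃ b ∉ Q,
      b * a ∈ Ideal.map (algebraMap ↥(chart A₀ x) ↥(chart A₀ y))
        (Q.comap (algebraMap ↥(chart A₀ x) ↥(chart A₀ y))) :=
  fun Q hQ hqQ => hunr_chart_le K₀ F0M F0N q hqA x htr hfin y htr' hfin' α hαA hαx hcompat xN
    hcomp ⊤ (fun _ _ _ _ w hw _ => he w hw) Q hQ hqQ le_top

end AbstractHUnr

end Fermat.Agent.S34.H59
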