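import Fermat.Agent.S34.H59.HUnrChart
import Fermat.Agent.S34.H60.HUnrModular
import Fermat.Agent.S34.H42.CuspLoc
import Fermat.Agent.S34.H61.FormMaps
import Fermat.Agent.S34.H78.L6
import Fermat.Agent.S18.H55.DegJ

/-!
# B' (M6b), `hunr` on the concrete charts for the base function `j(q^M)` (helper59)

Carriers (helper61): `A₀ = A ∩ K₀`, `K = ratForm M K₀`, `L = ratForm (M * q) K₀`, algebra
structures `S18.H19.algComap`.  For `x = j(q^M)` (`= H28.jtop M`) and `j = α x`:

* `jForm`, `jForm_mem_chart` : `j(q^d)` lies in the chart of `j(q^(d e))` (chain of modular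
  equations), for any base ring;
* `jgen_mem_chart` : `j(τ)` lies in the chart of `α(j(q^M))` at level `M q`;
* `he_ratForm_jtop` : a place of `F_{Mq}` centred on that chart is unramified along `α`
  (`Γ₀(M)` without elliptic elements);
* `hunr_ratForm_jtop` : over an unramified base (`q` a uniformiser of `A ∩ K₀`), the primes of
  the level-`Mq` chart not containing `q` are unramified over the level-`M` chart — the
  hypothesis `hunr` of `H68.crossing_regular_of_dsetup`, for ANY algebra structure between the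
  charts restricting `α`.
-/

set_option autoImplicit false

open IntermediateField ModularCurve AlgebraicCurve Polynomial

noncomputable section

namespace Fermat.Agent.S34.H59

open Fermat.Agent.S18 Fermat.Agent.S18.H74 Fermat.Agent.S18.H19 Fermat.Agent.S34.H19
  Fermat.Agent.S34.H61

/-! ### The chain of modular equations -/

section Chain

variable (N : ℕ) [NeZero N] (K₀ : IntermediateField ℚ Kb)

omit [NeZero N] in
/-- `j(q^d)` lies in every `K₀`-form. -/
theorem jFN_mem_ratForm (d : ℕ) [NeZero d] (hd : d ∣ N) : H28.jFN N d hd ∈ ratForm N K₀ := by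
  rw [jFN_eq_ratEmb]
  exact ratEmb_mem_ratForm N K₀ _

/-- `j(q^d)`, `d ∣ N`, as an element of the `K₀`-form of `F_N`. -/
def jForm (d : ℕ) (hd : d ∣ N) : ↥(ratForm N K₀) :=
  haveI : NeZero d := ⟨ne_zero_of_dvd_ne_zero (NeZero.ne N) hd⟩
  ⟨H28.jFN N d hd, jFN_mem_ratForm N K₀ d hd⟩

theorem coe_jForm (d : ℕ) [NeZero d] (hd : d ∣ N) :
    ((jForm N K₀ d hd : ↥(ratForm N K₀)) : FN N) = H28.jFN N d hd := rfl

theorem jForm_congr {d d' : ℕ} (h : d = d') (hd : d ∣ N) (hd' : d' ∣ N) :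
    jForm N K₀ d hd = jForm N K₀ d' hd' := by
  subst h
  rfl

variable {A₀ : Type*} [CommRing A₀] [Algebra A₀ ↥(ratForm N K₀)]

/-- One step: `j(q^d)` is integral over `A₀[j(q^(d p))]`. -/
theorem jForm_mem_chart_prime {p : ℕ} (hp : p.Prime) (d : ℕ) (hd : d ∣ N) (hdp : d * p ∣ N) :
    jForm N K₀ d hd ∈ chart A₀ (jForm N K₀ (d * p) hdp) := by
  haveI : NeZero d := ⟨ne_zero_of_dvd_ne_zero (NeZero.ne N) hd⟩
  haveI : NeZero (d * p) := ⟨ne_zero_of_dvd_ne_zero (NeZero.ne N) hdp⟩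
  obtain ⟨Φ, hΦ⟩ := Fermat.Agent.S28.hasModPolys p hp
  refine H42.mem_chart_of_evalY hΦ _ _ ?_
  have h := (H42.evalY_jFN N hp d hd hdp hΦ).2
  have hinj : Function.Injective (algebraMap ↥(ratForm N K₀) (FN N)) :=
    (algebraMap ↥(ratForm N K₀) (FN N)).injective
  apply hinj
  rw [map_zero, Fermat.Agent.S28.map_evalY_eval]
  exact h

/-- **The chain**: `j(q^d)` lies in the chart of `j(q^(d e))`. -/
theorem jForm_mem_chart (e : ℕ) : ∀ (d : ℕ) (hd : d ∣ N) (hde : d * e ∣ N),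
    jForm N K₀ d hd ∈ chart A₀ (jForm N K₀ (d * e) hde) := by
  induction e using Nat.recOnMul with
  | zero =>
    intro d hd hde
    exfalso
    rw [mul_zero, zero_dvd_iff] at hde
    exact NeZero.ne N hde
  | one =>
    intro d hd hde
    rw [jForm_congr N K₀ (mul_one d) hde hd]
    exact self_mem_chart A₀ _
  | prime p hp =>
    intro d hd hde
    exact jForm_mem_chart_prime N K₀ hp d hd hde
  | mul a b iha ihb =>
    intro d hd hde
    have hda : d * a ∣ N := Dvd.dvd.trans ⟨b, by ring⟩ hde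
    have hdab : d * a * b ∣ N := by rwa [mul_assoc]
    have h1 := iha d hd hda
    have h2 := ihb (d * a) hda hdab
    rw [jForm_congr N K₀ (mul_assoc d a b).symm hde hdab]
    exact chart_le_chart_of_mem h2 h1

end Chain

/-! ### The level `M q` -/

section Level

variable (M q : ℕ) [NeZero M] [NeZero q] (K₀ : IntermediateField ℚ Kb)

/-- `α(j(q^M)) = j(q^M)` at level `M q`. -/
theorem heckeAlphaBar_jtop :
    heckeAlphaBar Kb M q (H28.jtop M) = H28.jFN (M * q) M (dvd_mul_right M q) :=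
  Subtype.ext rfl

/-- `j(τ)` at level `N` is `j(q^1)`. -/
theorem jgen_eq_jFN (N : ℕ) [NeZero N] :
    Fermat.Agent.S24.jgen N = H28.jFN N 1 (one_dvd N) :=
  Subtype.ext rfl

variable {A₀ : Type*} [CommRing A₀] [Algebra A₀ ↥(ratForm (M * q) K₀)]

/-- `j(τ)` lies in the chart of `α(j(q^M))` at level `M q`. -/
theorem jgen_mem_chart (j : ↥(ratForm (M * q) K₀))
    (hj : (j : FN (M * q)) = heckeAlphaBar Kb M q (H28.jtop M)) :
    ∃ c ∈ chart A₀ j, ((c : ↥(ratForm (M * q) K₀)) : FN (M * q)) =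
      Fermat.Agent.S24.jgen (M * q) := by
  have h1 : (1 : ℕ) * M ∣ M * q := by
    rw [one_mul]
    exact dvd_mul_right M q
  have hjeq : j = jForm (M * q) K₀ (1 * M) h1 := by
    apply Subtype.ext
    rw [hj, heckeAlphaBar_jtop]
    exact congrArg Subtype.val
      (jForm_congr (M * q) K₀ (one_mul M).symm (dvd_mul_right M q) h1)
  refine ⟨jForm (M * q) K₀ 1 (one_dvd _), ?_, ?_⟩
  · rw [hjeq]
    exact jForm_mem_chart (M * q) K₀ M 1 (one_dvd _) h1
  · rw [jgen_eq_jFN]
    rfl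

/-- A place of `F_{Mq}` centred on the chart of `α(j(q^M))` has the same orders on `α(F_M)` as
a place of `F_M`, if `Γ₀(M)` has no elliptic element. -/
theorem he_ratForm_jtop (hNoEll : Fermat.Agent.S34.H92.NoElliptic M)
    (j : ↥(ratForm (M * q) K₀))
    (hj : (j : FN (M * q)) = heckeAlphaBar Kb M q (H28.jtop M))
    (w : Place Kb (FN (M * q)))
    (hw : ∀ r ∈ chart A₀ j, ((r : ↥(ratForm (M * q) K₀)) : FN (M * q)) ∈ w.toValuationSubring) :
    ∃ v : Place Kb (FN M), ∀ f : FN M, v.ord f = w.ord (heckeAlphaBar Kb M q f) := by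
  obtain ⟨c, hc, hcj⟩ := jgen_mem_chart M q K₀ (A₀ := A₀) j hj
  have h := hw c hc
  rw [hcj] at h
  exact H60.exists_place_ord_alpha_eq M q hNoEll w h

end Level

/-! ### The concrete statement -/

section Concrete

variable (M q : ℕ) [NeZero M] [NeZero q] (K₀ : IntermediateField ℚ Kb) (A : ValuationSubring Kb)

/-- **`hunr` on the concrete charts, base function `j(q^M)`.**  Over an unramified base
(`q` a uniformiser of `A₀ = A ∩ K₀`), if `Γ₀(M)` has no elliptic element, every prime of the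
level-`Mq` chart `C₀ = chart A₀ j`, `j = α(j(q^M))`, not containing `q` is unramified over the
level-`M` chart `S₀ = chart A₀ (j(q^M))` — for ANY algebra structure `S₀ → C₀` restricting `α`.
The four chart hypotheses are `DSetup.transc`, `DSetup.finite` at level `M` and `H30.chartLeaf`
at level `M q`. -/
theorem hunr_ratForm_jtop (hNoEll : Fermat.Agent.S34.H92.NoElliptic M)
    [IsDiscreteValuationRing ↥(A.comap (algebraMap K₀ Kb))]
    (hqA : Irreducible ((q : ℕ) : ↥(A.comap (algebraMap K₀ Kb))))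
    (hx : H28.jtop M ∈ ratForm M K₀)
    (j : ↥(ratForm (M * q) K₀))
    (hj : (j : FN (M * q)) = heckeAlphaBar Kb M q (H28.jtop M)) :
    letI := algComap (A.comap (algebraMap K₀ Kb)) (ratForm M K₀)
    letI := algComap (A.comap (algebraMap K₀ Kb)) (ratForm (M * q) K₀)
    Transcendental ↥(A.comap (algebraMap K₀ Kb)) (⟨H28.jtop M, hx⟩ : ↥(ratForm M K₀)) →
    Module.Finite ↥(ratSub ↥(A.comap (algebraMap K₀ Kb)) (⟨H28.jtop M, hx⟩ : ↥(ratForm M K₀)))
      ↥(ratForm M K₀) →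
    Transcendental ↥(A.comap (algebraMap K₀ Kb)) j →
    Module.Finite ↥(ratSub ↥(A.comap (algebraMap K₀ Kb)) j) ↥(ratForm (M * q) K₀) →
    ∀ [Algebra ↥(chart ↥(A.comap (algebraMap K₀ Kb)) (⟨H28.jtop M, hx⟩ : ↥(ratForm M K₀)))
      ↥(chart ↥(A.comap (algebraMap K₀ Kb)) j)],
    (∀ s : ↥(chart ↥(A.comap (algebraMap K₀ Kb)) (⟨H28.jtop M, hx⟩ : ↥(ratForm M K₀))),
      (((algebraMap
          ↥(chart ↥(A.comap (algebraMap K₀ Kb)) (⟨H28.jtop M, hx⟩ : ↥(ratForm M K₀)))
          ↥(chart ↥(A.comap (algebraMap K₀ Kb)) j) s :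
        ↥(chart ↥(A.comap (algebraMap K₀ Kb)) j)) : ↥(ratForm (M * q) K₀)) : FN (M * q)) =
        heckeAlphaBar Kb M q ((s : ↥(ratForm M K₀)) : FN M)) →
    ∀ Q : Ideal ↥(chart ↥(A.comap (algebraMap K₀ Kb)) j), Q.IsPrime →
      ((q : ℕ) : ↥(chart ↥(A.comap (algebraMap K₀ Kb)) j)) ∉ Q → ∀ a ∈ Q, ∃ b ∉ Q,
      b * a ∈ Ideal.map
        (algebraMap ↥(chart ↥(A.comap (algebraMap K₀ Kb)) (⟨H28.jtop M, hx⟩ : ↥(ratForm M K₀)))
          ↥(chart ↥(A.comap (algebraMap K₀ Kb)) j))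
        (Q.comap (algebraMap
          ↥(chart ↥(A.comap (algebraMap K₀ Kb)) (⟨H28.jtop M, hx⟩ : ↥(ratForm M K₀)))
          ↥(chart ↥(A.comap (algebraMap K₀ Kb)) j))) := by
  letI algM := algComap (A.comap (algebraMap K₀ Kb)) (ratForm M K₀)
  letI algN := algComap (A.comap (algebraMap K₀ Kb)) (ratForm (M * q) K₀)
  intro htr hfin htr' hfin' inst hcompat
  haveI : FaithfulSMul ↥(A.comap (algebraMap K₀ Kb)) ↥(ratForm M K₀) :=
    Fermat.Agent.S34.H78.faithfulSMul_comap A K₀ (ratForm M K₀)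
  haveI : FaithfulSMul ↥(A.comap (algebraMap K₀ Kb)) ↥(ratForm (M * q) K₀) :=
    Fermat.Agent.S34.H78.faithfulSMul_comap A K₀ (ratForm (M * q) K₀)
  haveI : IsScalarTower ↥(A.comap (algebraMap K₀ Kb)) ↥K₀ ↥(ratForm (M * q) K₀) :=
    IsScalarTower.of_algebraMap_eq fun _ => rfl
  haveI : FiniteDimensional Kb⟮Fermat.Agent.S24.jgen (M * q)⟯ (FN (M * q)) :=
    Fermat.Agent.S18.H55.finiteDimensional_jgen (M * q)
  exact hunr_chart K₀ (ratForm M K₀) (ratForm (M * q) K₀) q hqA ⟨H28.jtop M, hx⟩ htr hfin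
    j htr' hfin' ((heckeAlphaBar Kb M q : FN M →ₐ[Kb] FN (M * q)) : FN M →+* FN (M * q))
    (fun a => (heckeAlphaBar Kb M q).commutes (((a : K₀) : Kb))) hj.symm hcompat
    (Fermat.Agent.S24.jgen (M * q)) (ratForm_closure_eq_top M K₀)
    (fun w hw => he_ratForm_jtop M q K₀ hNoEll j hj w hw)

end Concrete

end Fermat.Agent.S34.H59
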